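import Mathlib

/-!
# Weight-one Eisenstein series, part 1: the absolutely convergent lattice sum

`psi w z = 1/(w+2z) - 2/(w+z) + 1/w = 2 z^2 / (w (w+z) (w+2z))` and
`S z τ = ∑_{(m,n) ∈ ℤ²} psi (m τ + n) z`  (`= ζ_W(2z) - 2 ζ_W(z)` for the lattice `ℤτ + ℤ`).
-/

set_option autoImplicit false

namespace Fermat.Agent.DS.Eis1

open Complex UpperHalfPlane Filter Topology Matrix
open scoped MatrixGroups

noncomputable section

/-- The summand: `ψ(w, z) = 1/(w + 2z) − 2/(w + z) + 1/w`. -/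
def psi (w z : ℂ) : ℂ := (w + 2 * z)⁻¹ - 2 * (w + z)⁻¹ + w⁻¹

lemma psi_zero_right (w : ℂ) : psi w 0 = 0 := by
  simp only [psi, mul_zero, add_zero]; ring

lemma psi_mul (c w z : ℂ) : psi (c * w) (c * z) = c⁻¹ * psi w z := by
  simp only [psi]
  rw [show c * w + 2 * (c * z) = c * (w + 2 * z) by ring, show c * w + c * z = c * (w + z) by ring]
  simp only [mul_inv]
  ring

lemma psi_eq_div {w z : ℂ} (h0 : w ≠ 0) (h1 : w + z ≠ 0) (h2 : w + 2 * z ≠ 0) :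
    psi w z = 2 * z ^ 2 / (w * (w + z) * (w + 2 * z)) := by
  simp only [psi]
  field_simp
  ring

lemma norm_psi_le {w z : ℂ} (h : 4 * ‖z‖ ≤ ‖w‖) : ‖psi w z‖ ≤ 6 * ‖z‖ ^ 2 / ‖w‖ ^ 3 := by
  rcases eq_or_ne w 0 with rfl | hw
  · have hz : z = 0 := by
      rw [norm_zero] at h
      have : ‖z‖ ≤ 0 := by linarith
      exact norm_le_zero_iff.mp this
    simp [hz, psi]
  have hwpos : 0 < ‖w‖ := norm_pos_iff.mpr hw
  have hz0 : 0 ≤ ‖z‖ := norm_nonneg z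
  have h1 : 3 / 4 * ‖w‖ ≤ ‖w + z‖ := by
    have := norm_sub_norm_le w (-z)
    simp only [norm_neg, sub_neg_eq_add] at this
    linarith
  have h2 : 1 / 2 * ‖w‖ ≤ ‖w + 2 * z‖ := by
    have := norm_sub_norm_le w (-(2 * z))
    simp only [norm_neg, sub_neg_eq_add, norm_mul, Complex.norm_ofNat] at this
    linarith
  have hne1 : w + z ≠ 0 := by
    intro h0; rw [h0, norm_zero] at h1; linarith
  have hne2 : w + 2 * z ≠ 0 := by
    intro h0; rw [h0, norm_zero] at h2; linarith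
  rw [psi_eq_div hw hne1 hne2, norm_div, norm_mul, norm_mul, norm_mul, norm_pow,
    Complex.norm_ofNat, div_le_div_iff₀ (by positivity) (by positivity)]
  have h3 : 3 / 8 * ‖w‖ ^ 2 ≤ ‖w + z‖ * ‖w + 2 * z‖ := by nlinarith
  have h4 : 0 ≤ ‖z‖ ^ 2 * ‖w‖ := by positivity
  nlinarith [mul_le_mul_of_nonneg_left h3 h4]

/-- Cofinitely many integer vectors have large norm. -/
lemma eventually_cofinite_le_norm (R : ℝ) : ∀ᶠ v : Fin 2 → ℤ in cofinite, R ≤ ‖v‖ :=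
  (tendsto_norm_comp_cofinite_atTop_of_isClosedEmbedding
    (IsClosedEmbedding.id (X := Fin 2 → ℤ))).eventually_ge_atTop R

/-- The basic estimate: if `r ‖v‖ ≤ ‖w‖`, `‖z‖ ≤ Z` and `‖v‖` is large, then
`‖psi w z‖ ≤ (6 Z² / r³) ‖v‖⁻³`. -/
lemma norm_psi_le_of_le {w z : ℂ} {r Z nv : ℝ} (hr : 0 < r) (hz : ‖z‖ ≤ Z)
    (hw : r * nv ≤ ‖w‖) (hv1 : 1 ≤ nv) (hv : 4 * Z / r ≤ nv) :
    ‖psi w z‖ ≤ 6 * Z ^ 2 / r ^ 3 * (nv ^ (3 : ℝ))⁻¹ := by
  have hZ : 0 ≤ Z := (norm_nonneg z).trans hz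
  have h4 : 4 * ‖z‖ ≤ ‖w‖ := by
    rw [div_le_iff₀ hr] at hv
    nlinarith
  have hwpos : 0 < ‖w‖ := lt_of_lt_of_le (by positivity) hw
  refine (norm_psi_le h4).trans ?_
  rw [Real.rpow_ofNat, div_mul_eq_mul_div, ← div_eq_mul_inv, div_div, ← mul_pow]
  have h5 : (nv * r) ^ 3 ≤ ‖w‖ ^ 3 := by
    rw [mul_comm]
    exact pow_le_pow_left₀ (by positivity) hw 3
  have h6 : ‖z‖ ^ 2 ≤ Z ^ 2 := pow_le_pow_left₀ (norm_nonneg z) hz 2
  exact div_le_div₀ (by positivity) (by linarith) (by positivity) h5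

lemma psi_isBigO (τ : ℍ) (z : ℂ) :
    (fun v : Fin 2 → ℤ => psi (v 0 * (τ : ℂ) + v 1) z) =O[cofinite]
      fun v => (‖v‖ ^ (3 : ℝ))⁻¹ := by
  rw [Asymptotics.isBigO_iff]
  have hr := EisensteinSeries.r_pos τ
  refine ⟨6 * ‖z‖ ^ 2 / (EisensteinSeries.r τ) ^ 3, ?_⟩
  filter_upwards [eventually_cofinite_le_norm (max 1 (4 * ‖z‖ / EisensteinSeries.r τ))] with v hv
  have hv1 : 1 ≤ ‖v‖ := le_trans (le_max_left _ _) hv
  have hv0 : v ≠ 0 := by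
    rintro rfl
    simp at hv1
    linarith
  have hw := EisensteinSeries.r_mul_max_le τ hv0
  refine (norm_psi_le_of_le hr le_rfl hw hv1 (le_trans (le_max_right _ _) hv)).trans ?_
  rw [Real.norm_of_nonneg (by positivity)]

lemma summable_psi (τ : ℍ) (z : ℂ) :
    Summable fun v : Fin 2 → ℤ => psi (v 0 * (τ : ℂ) + v 1) z :=
  EisensteinSeries.summable_of_isBigO_rpow_norm (a := 3) (by norm_num) (psi_isBigO τ z)

/-- `S z τ = ∑_{(m,n)} psi (m τ + n) z`. -/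
def S (z : ℂ) (τ : ℍ) : ℂ := ∑' v : Fin 2 → ℤ, psi (v 0 * (τ : ℂ) + v 1) z

lemma hasSum_S (z : ℂ) (τ : ℍ) :
    HasSum (fun v : Fin 2 → ℤ => psi (v 0 * (τ : ℂ) + v 1) z) (S z τ) :=
  (summable_psi τ z).hasSum

/-- Right multiplication by `γ ∈ SL(2,ℤ)` as an equivalence of `ℤ²`. -/
def vecMulEquiv (γ : SL(2, ℤ)) : (Fin 2 → ℤ) ≃ (Fin 2 → ℤ) where
  toFun v := v ᵥ* (γ : Matrix (Fin 2) (Fin 2) ℤ)
  invFun v := v ᵥ* ((γ⁻¹ : SL(2, ℤ)) : Matrix (Fin 2) (Fin 2) ℤ)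
  left_inv v := by
    show (v ᵥ* (γ : Matrix (Fin 2) (Fin 2) ℤ)) ᵥ* ((γ⁻¹ : SL(2, ℤ)) : Matrix (Fin 2) (Fin 2) ℤ) = v
    rw [vecMul_vecMul, ← Matrix.SpecialLinearGroup.coe_mul, mul_inv_cancel,
      Matrix.SpecialLinearGroup.coe_one, vecMul_one]
  right_inv v := by
    show (v ᵥ* ((γ⁻¹ : SL(2, ℤ)) : Matrix (Fin 2) (Fin 2) ℤ)) ᵥ* (γ : Matrix (Fin 2) (Fin 2) ℤ) = v
    rw [vecMul_vecMul, ← Matrix.SpecialLinearGroup.coe_mul, inv_mul_cancel,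
      Matrix.SpecialLinearGroup.coe_one, vecMul_one]

lemma vecMulEquiv_apply (γ : SL(2, ℤ)) (v : Fin 2 → ℤ) :
    vecMulEquiv γ v = v ᵥ* (γ : Matrix (Fin 2) (Fin 2) ℤ) := rfl

lemma lin_smul (γ : SL(2, ℤ)) (τ : ℍ) (v : Fin 2 → ℤ) :
    (v 0 : ℂ) * ((γ • τ : ℍ) : ℂ) + v 1 =
      (denom γ τ)⁻¹ * (((v ᵥ* (γ : Matrix (Fin 2) (Fin 2) ℤ)) 0 : ℤ) * (τ : ℂ) +
        ((v ᵥ* (γ : Matrix (Fin 2) (Fin 2) ℤ)) 1 : ℤ)) := by
  have hd : (τ : ℂ) * (γ 1 0 : ℂ) + γ 1 1 ≠ 0 := by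
    have := denom_ne_zero γ τ
    simp only [denom] at this
    convert this using 1
    simp [mul_comm]
  simp only [vecMul, vec2_dotProduct, denom, UpperHalfPlane.specialLinearGroup_apply]
  simp
  field_simp
  ring

/-- Modular behaviour of `S`: `S (z/(cτ+d)) (γτ) = (cτ+d) S z τ`. -/
theorem S_smul (γ : SL(2, ℤ)) (τ : ℍ) (z : ℂ) :
    S ((denom γ τ)⁻¹ * z) (γ • τ) = denom γ τ * S z τ := by
  unfold S
  rw [← tsum_mul_left,
    ← (vecMulEquiv γ).tsum_eq (fun v => denom γ τ * psi (v 0 * (τ : ℂ) + v 1) z)]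
  refine tsum_congr fun v => ?_
  rw [lin_smul, psi_mul, inv_inv, vecMulEquiv_apply]

/-- The specialisation of `S` at the `ℓ`-torsion point `(a₀ τ + a₁)/ℓ`. -/
def Phi (ℓ : ℕ) (a : Fin 2 → ℤ) (τ : ℍ) : ℂ := S (((a 0 : ℂ) * τ + a 1) / ℓ) τ

/-- The summand of `Phi` as a function on `ℂ`. -/
def phiTerm (ℓ : ℕ) (a v : Fin 2 → ℤ) (τ : ℂ) : ℂ :=
  psi ((v 0 : ℂ) * τ + v 1) (((a 0 : ℂ) * τ + a 1) / ℓ)

lemma Phi_eq_tsum (ℓ : ℕ) (a : Fin 2 → ℤ) (τ : ℍ) :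
    Phi ℓ a τ = ∑' v : Fin 2 → ℤ, phiTerm ℓ a v τ := rfl

lemma differentiableOn_inv_affine (c d : ℝ) :
    DifferentiableOn ℂ (fun τ : ℂ => ((c : ℂ) * τ + d)⁻¹) {τ : ℂ | 0 < τ.im} := by
  by_cases h : c = 0 ∧ d = 0
  · obtain ⟨rfl, rfl⟩ := h
    simp only [ofReal_zero, zero_mul, add_zero, _root_.inv_zero]
    exact differentiableOn_const _
  · refine DifferentiableOn.inv (by fun_prop) fun τ hτ => ?_
    intro h0
    have him := congrArg Complex.im h0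
    have hre := congrArg Complex.re h0
    simp only [add_im, mul_im, ofReal_re, ofReal_im, zero_mul, add_zero, zero_im] at him
    simp only [add_re, mul_re, ofReal_re, ofReal_im, zero_mul, sub_zero, zero_re] at hre
    have hτ' : (0 : ℝ) < τ.im := hτ
    have hc : c = 0 := by
      rcases mul_eq_zero.mp him with h1 | h1
      · exact h1
      · exact absurd h1 hτ'.ne'
    rw [hc, zero_mul, zero_add] at hre
    exact h ⟨hc, hre⟩

lemma differentiableOn_phiTerm (ℓ : ℕ) (a v : Fin 2 → ℤ) :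
    DifferentiableOn ℂ (phiTerm ℓ a v) {τ : ℂ | 0 < τ.im} := by
  have h0 := differentiableOn_inv_affine (v 0) (v 1)
  have h1 := differentiableOn_inv_affine (v 0 + a 0 / ℓ) (v 1 + a 1 / ℓ)
  have h2 := differentiableOn_inv_affine (v 0 + 2 * (a 0 / ℓ)) (v 1 + 2 * (a 1 / ℓ))
  refine ((h2.sub (h1.const_mul 2)).add h0).congr fun τ _ => ?_
  have e2 : (((v 0 : ℝ) + 2 * ((a 0 : ℝ) / (ℓ : ℝ)) : ℝ) : ℂ) * τ +
      (((v 1 : ℝ) + 2 * ((a 1 : ℝ) / (ℓ : ℝ)) : ℝ) : ℂ) =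
      (v 0 : ℂ) * τ + v 1 + 2 * (((a 0 : ℂ) * τ + a 1) / ℓ) := by
    push_cast; ring
  have e1 : (((v 0 : ℝ) + (a 0 : ℝ) / (ℓ : ℝ) : ℝ) : ℂ) * τ +
      (((v 1 : ℝ) + (a 1 : ℝ) / (ℓ : ℝ) : ℝ) : ℂ) =
      (v 0 : ℂ) * τ + v 1 + ((a 0 : ℂ) * τ + a 1) / ℓ := by
    push_cast; ring
  have e0 : (((v 0 : ℝ) : ℂ)) * τ + (((v 1 : ℝ) : ℂ)) = (v 0 : ℂ) * τ + v 1 := by
    push_cast; ring
  simp only [phiTerm, psi, Pi.add_apply, Pi.sub_apply]
  rw [e2, e1, e0]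

/-- The series defining `Phi` converges locally uniformly on `ℍ`. -/
theorem tendstoLocallyUniformly_Phi (ℓ : ℕ) (a : Fin 2 → ℤ) :
    TendstoLocallyUniformly
      (fun (s : Finset (Fin 2 → ℤ)) (τ : ℍ) => ∑ v ∈ s, phiTerm ℓ a v τ)
      (Phi ℓ a) atTop := by
  rw [tendstoLocallyUniformly_iff_forall_isCompact]
  intro K hK
  obtain ⟨A, B, hB, hAB⟩ := subset_verticalStrip_of_isCompact hK
  obtain ⟨T, hT⟩ := hK.exists_bound_of_continuousOn (f := fun τ : ℍ => (τ : ℂ))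
    (UpperHalfPlane.continuous_coe.continuousOn)
  set r0 := EisensteinSeries.r ⟨⟨A, B⟩, hB⟩ with hr0
  have hr0pos : 0 < r0 := EisensteinSeries.r_pos _
  set Z := (|(a 0 : ℝ)| * |T| + |(a 1 : ℝ)|) * ‖((ℓ : ℂ))⁻¹‖ with hZ
  have hu : Summable fun v : Fin 2 → ℤ => 6 * Z ^ 2 / r0 ^ 3 * (‖v‖ ^ (3 : ℝ))⁻¹ := by
    refine Summable.mul_left _ ?_
    refine (EisensteinSeries.summable_one_div_norm_rpow (k := 3) (by norm_num)).congr fun v => ?_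
    rw [Real.rpow_neg (norm_nonneg _)]
  have key := tendstoUniformlyOn_tsum_of_cofinite_eventually (f := fun v (τ : ℍ) => phiTerm ℓ a v τ)
    (s := K) hu ?_
  · exact key
  filter_upwards [eventually_cofinite_le_norm (max 1 (4 * Z / r0))] with v hv τ hτ
  have hv1 : 1 ≤ ‖v‖ := le_trans (le_max_left _ _) hv
  have hv0 : v ≠ 0 := by
    rintro rfl
    simp at hv1
    linarith
  have hw : r0 * ‖v‖ ≤ ‖(v 0 : ℂ) * (τ : ℂ) + v 1‖ :=
    (mul_le_mul_of_nonneg_right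
      (EisensteinSeries.r_lower_bound_on_verticalStrip τ hB (hAB hτ)) (norm_nonneg _)).trans
      (EisensteinSeries.r_mul_max_le τ hv0)
  have hz : ‖((a 0 : ℂ) * (τ : ℂ) + a 1) / ℓ‖ ≤ Z := by
    rw [div_eq_mul_inv, norm_mul, hZ]
    refine mul_le_mul_of_nonneg_right ?_ (norm_nonneg _)
    refine (norm_add_le _ _).trans ?_
    rw [norm_mul, Complex.norm_intCast, Complex.norm_intCast]
    have h1 : ‖(τ : ℂ)‖ ≤ |T| := (hT τ hτ).trans (le_abs_self T)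
    have h2 : 0 ≤ |(a 0 : ℝ)| := abs_nonneg _
    nlinarith
  exact norm_psi_le_of_le hr0pos hz hw hv1 (le_trans (le_max_right _ _) hv)

open scoped Manifold in
/-- `Phi ℓ a` is holomorphic on the upper half plane. -/
theorem mdifferentiable_Phi (ℓ : ℕ) (a : Fin 2 → ℤ) : MDifferentiable 𝓘(ℂ) 𝓘(ℂ) (Phi ℓ a) := by
  have hloc : TendstoLocallyUniformlyOn
      (fun (s : Finset (Fin 2 → ℤ)) => (fun τ : ℍ => ∑ v ∈ s, phiTerm ℓ a v τ) ∘ ofComplex)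
      (Phi ℓ a ∘ ofComplex) atTop {z : ℂ | 0 < z.im} := by
    rw [← upperHalfPlaneSet, ← range_coe, ← Set.image_univ]
    apply TendstoLocallyUniformlyOn.comp (s := ⊤) _ _ _ (OpenPartialHomeomorph.continuousOn_symm _)
    · simp only [Set.top_eq_univ, tendstoLocallyUniformlyOn_univ]
      exact tendstoLocallyUniformly_Phi ℓ a
    · simp only [IsOpenEmbedding.toOpenPartialHomeomorph_target, Set.top_eq_univ,
        Set.mapsTo_range_iff, Set.mem_univ, forall_const]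
  intro τ
  suffices DifferentiableAt ℂ (Phi ℓ a ∘ ofComplex) τ.1 by
    convert! MDifferentiableAt.comp τ (DifferentiableAt.mdifferentiableAt this)
      τ.mdifferentiable_coe
    exact funext fun z ↦ (comp_ofComplex (Phi ℓ a) z).symm
  refine DifferentiableOn.differentiableAt ?_ (isOpen_upperHalfPlaneSet.mem_nhds τ.2)
  refine hloc.differentiableOn (Eventually.of_forall fun s ↦ ?_) isOpen_upperHalfPlaneSet
  have hsum : DifferentiableOn ℂ (fun τ : ℂ => ∑ v ∈ s, phiTerm ℓ a v τ) {z : ℂ | 0 < z.im} :=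
    DifferentiableOn.fun_sum fun v _ ↦ differentiableOn_phiTerm ℓ a v
  refine hsum.congr fun z hz => ?_
  lift z to ℍ using hz
  simp [ofComplex_apply]

end

end Fermat.Agent.DS.Eis1
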