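import Mathlib
import Fermat.Agent.DS.Eis1.Psi

/-!
# Weight-one Eisenstein series, part 2: row sums and ellipticity

The row sums of the lattice sum `S z τ` are cotangent combinations; telescoping shows that
`z ↦ S z τ` is periodic for the lattice `ℤτ + ℤ`.
-/

set_option autoImplicit false

namespace Fermat.Agent.DS.Eis1

open Complex Filter Topology
open UpperHalfPlane hiding I
open scoped Real

noncomputable section

local notation "ℂ_ℤ" => Complex.integerComplement

/-- `cotPi x = π cot (π x)`; it vanishes at the integers by the division convention. -/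
def cotPi (x : ℂ) : ℂ := π * Complex.cot (π * x)

lemma cotPi_zero : cotPi 0 = 0 := by
  simp [cotPi, Complex.cot]

lemma cotPi_add_one (x : ℂ) : cotPi (x + 1) = cotPi x := by
  simp only [cotPi, Complex.cot]
  rw [mul_add, mul_one, Complex.cos_add_pi, Complex.sin_add_pi, neg_div_neg_eq]

lemma cotPi_neg (x : ℂ) : cotPi (-x) = -cotPi x := by
  simp only [cotPi, Complex.cot]
  rw [mul_neg, Complex.cos_neg, Complex.sin_neg, div_neg, mul_neg]

/-- Partial fractions for the cotangent, as an unconditional sum over `ℤ`. -/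
theorem hasSum_cotPi {x : ℂ} (hx : x ∈ ℂ_ℤ) :
    HasSum (fun n : ℤ => (x + n)⁻¹ - (n : ℂ)⁻¹) (cotPi x) := by
  set f : ℤ → ℂ := fun n => (x + n)⁻¹ - (n : ℂ)⁻¹ with hf
  have hsum : Summable f := by
    have hg := (EisensteinSeries.summable_linear_sub_mul_linear_add x 0 1).mul_left x
    have hs : Summable (fun n : ℤ => if n = 0 then x⁻¹ else 0) :=
      summable_of_ne_finset_zero (s := {0}) (fun b hb => by simp at hb; simp [hb])
    refine (hg.add hs).congr fun n => ?_
    rcases eq_or_ne n 0 with rfl | hn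
    · simp [hf]
    · have hn' : (n : ℂ) ≠ 0 := by exact_mod_cast hn
      have hxn : x + n ≠ 0 := integerComplement_add_ne_zero hx n
      simp only [hf, if_neg hn, add_zero, Int.cast_zero, zero_mul, zero_sub, Int.cast_one, one_mul]
      field_simp
      ring
  have h1 : HasSum (fun n : ℕ => f ((n : ℤ) + 1)) (∑' n : ℕ, f ((n : ℤ) + 1)) :=
    (hsum.comp_injective (i := fun n : ℕ => (n : ℤ) + 1)
      (fun a b h => by simpa using h)).hasSum
  have h2 : HasSum (fun n : ℕ => f (-((n : ℤ) + 1))) (∑' n : ℕ, f (-((n : ℤ) + 1))) :=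
    (hsum.comp_injective (i := fun n : ℕ => -((n : ℤ) + 1))
      (fun a b h => by simpa using h)).hasSum
  have h3 := HasSum.of_add_one_of_neg_add_one h1 h2
  have h4 : (∑' n : ℕ, f ((n : ℤ) + 1)) + (∑' n : ℕ, f (-((n : ℤ) + 1))) =
      π * Complex.cot (π * x) - 1 / x := by
    rw [cot_series_rep' hx, ← (h1.add h2).tsum_eq]
    refine tsum_congr fun n => ?_
    simp only [hf]
    push_cast
    rw [show x + -((n : ℂ) + 1) = x - (n + 1) by ring, inv_neg]
    ring
  have h5 : (∑' n : ℕ, f ((n : ℤ) + 1)) + f 0 + (∑' n : ℕ, f (-((n : ℤ) + 1))) = cotPi x := by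
    have : f 0 = 1 / x := by simp [hf]
    rw [this, cotPi]
    linear_combination h4
  rw [← h5]
  exact h3

theorem hasSum_cotPi' {x : ℂ} (hx : x ∈ ℂ_ℤ ∨ x = 0) :
    HasSum (fun n : ℤ => (x + n)⁻¹ - (n : ℂ)⁻¹) (cotPi x) := by
  rcases hx with hx | rfl
  · exact hasSum_cotPi hx
  · simp only [zero_add, sub_self, cotPi_zero]
    exact hasSum_zero

/-- The row sums of `psi`. -/
theorem hasSum_row {u z : ℂ} (h0 : u ∈ ℂ_ℤ ∨ u = 0) (h1 : u + z ∈ ℂ_ℤ ∨ u + z = 0)
    (h2 : u + 2 * z ∈ ℂ_ℤ ∨ u + 2 * z = 0) :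
    HasSum (fun n : ℤ => psi (u + n) z) (cotPi (u + 2 * z) - 2 * cotPi (u + z) + cotPi u) := by
  refine (((hasSum_cotPi' h2).sub ((hasSum_cotPi' h1).mul_left 2)).add (hasSum_cotPi' h0)).congr_fun
    fun n => ?_
  simp only [psi]
  rw [show u + n + 2 * z = u + 2 * z + n by ring, show u + (n : ℂ) + z = u + z + n by ring]
  ring

/-- Genericity of `z` with respect to the lattice `ℤτ + ℤ`: `2z` is not a lattice point. -/
def Gen (τ : ℍ) (z : ℂ) : Prop := ∀ m n : ℤ, 2 * z ≠ (m : ℂ) * τ + n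

/-- The `m`-th row sum of `S z τ`. -/
def R (τ : ℍ) (z : ℂ) (m : ℤ) : ℂ :=
  cotPi ((m : ℂ) * τ + 2 * z) - 2 * cotPi ((m : ℂ) * τ + z) + cotPi ((m : ℂ) * τ)

lemma int_mul_mem_integerComplement (τ : ℍ) {m : ℤ} (hm : m ≠ 0) : (m : ℂ) * τ ∈ ℂ_ℤ := by
  rw [mem_integerComplement_iff]
  rintro ⟨n, hn⟩
  have him := congrArg Complex.im hn
  simp at him
  rcases him with h | h
  · exact hm h
  · exact τ.im_pos.ne' h

theorem hasSum_R {τ : ℍ} {z : ℂ} (hz : Gen τ z) : HasSum (R τ z) (S z τ) := by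
  have h := hasSum_S z τ
  rw [← (finTwoArrowEquiv ℤ).symm.hasSum_iff] at h
  refine HasSum.prod_fiberwise h fun m => ?_
  have hrow : HasSum (fun n : ℤ => psi ((m : ℂ) * τ + n) z) (R τ z m) := by
    refine hasSum_row ?_ ?_ ?_
    · rcases eq_or_ne m 0 with rfl | hm
      · right; simp
      · left; exact int_mul_mem_integerComplement τ hm
    · left
      rw [mem_integerComplement_iff]
      rintro ⟨n, hn⟩
      refine hz (-2 * m) (2 * n) ?_
      push_cast
      linear_combination (-2 : ℂ) * hn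
    · left
      rw [mem_integerComplement_iff]
      rintro ⟨n, hn⟩
      refine hz (-m) n ?_
      push_cast
      linear_combination (-1 : ℂ) * hn
  exact hrow

lemma Gen.add_one {τ : ℍ} {z : ℂ} (hz : Gen τ z) : Gen τ (z + 1) := by
  intro m n h
  refine hz m (n - 2) ?_
  push_cast
  linear_combination h

lemma Gen.add_tau {τ : ℍ} {z : ℂ} (hz : Gen τ z) : Gen τ (z + τ) := by
  intro m n h
  refine hz (m - 2) n ?_
  push_cast
  linear_combination h

lemma Gen.sub_one {τ : ℍ} {z : ℂ} (hz : Gen τ z) : Gen τ (z - 1) := by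
  intro m n h
  refine hz m (n + 2) ?_
  push_cast
  linear_combination h

lemma Gen.sub_tau {τ : ℍ} {z : ℂ} (hz : Gen τ z) : Gen τ (z - τ) := by
  intro m n h
  refine hz (m + 2) n ?_
  push_cast
  linear_combination h

/-- `S` is invariant under `z ↦ z + 1`. -/
theorem S_add_one {τ : ℍ} {z : ℂ} (hz : Gen τ z) : S (z + 1) τ = S z τ := by
  refine (hasSum_R hz.add_one).unique ((hasSum_R hz).congr_fun fun m => ?_)
  simp only [R]
  rw [show (m : ℂ) * τ + 2 * (z + 1) = (m : ℂ) * τ + 2 * z + 1 + 1 by ring,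
    show (m : ℂ) * τ + (z + 1) = (m : ℂ) * τ + z + 1 by ring, cotPi_add_one, cotPi_add_one,
    cotPi_add_one]

/-- `π cot(π (N τ + b)) → -π i` as `N → ∞`. -/
lemma tendsto_cotPi_atTop (τ : ℍ) (b : ℂ) :
    Tendsto (fun N : ℕ => cotPi ((N : ℂ) * τ + b)) atTop (𝓝 (-(π * I))) := by
  have hq : ‖Complex.exp (2 * π * I * τ)‖ < 1 := UpperHalfPlane.norm_exp_two_pi_I_lt_one τ
  have he : Tendsto (fun N : ℕ => Complex.exp (2 * π * I * ((N : ℂ) * τ + b))) atTop (𝓝 0) := by
    have h1 := (tendsto_pow_atTop_nhds_zero_of_norm_lt_one hq).mul_const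
      (Complex.exp (2 * π * I * b))
    rw [zero_mul] at h1
    refine h1.congr fun N => ?_
    rw [← Complex.exp_nat_mul, ← Complex.exp_add]
    congr 1
    ring
  have h2 : Tendsto (fun N : ℕ => (π : ℂ) * ((Complex.exp (2 * π * I * ((N : ℂ) * τ + b)) + 1) /
      (I * (1 - Complex.exp (2 * π * I * ((N : ℂ) * τ + b)))))) atTop
      (𝓝 ((π : ℂ) * ((0 + 1) / (I * (1 - 0))))) := by
    refine Tendsto.const_mul _ (Tendsto.div (he.add_const 1) ((tendsto_const_nhds.sub he).const_mul I) ?_)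
    simp
  have h3 : (π : ℂ) * ((0 + 1) / (I * (1 - 0))) = -(π * I) := by
    simp
  rw [h3] at h2
  refine h2.congr fun N => ?_
  rw [cotPi, Complex.cot_pi_eq_exp_ratio]

/-- `π cot(π (-N τ + b)) → π i` as `N → ∞`. -/
lemma tendsto_cotPi_atBot (τ : ℍ) (b : ℂ) :
    Tendsto (fun N : ℕ => cotPi (-(N : ℂ) * τ + b)) atTop (𝓝 (π * I)) := by
  have h := (tendsto_cotPi_atTop τ (-b)).neg
  rw [neg_neg] at h
  refine h.congr fun N => ?_
  rw [← cotPi_neg]
  congr 1
  ring

/-- `S` is invariant under `z ↦ z + τ`. -/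
theorem S_add_tau {τ : ℍ} {z : ℂ} (hz : Gen τ z) : S (z + τ) τ = S z τ := by
  set c1 : ℤ → ℂ := fun m => cotPi ((m : ℂ) * τ + z) with hc1
  set c2 : ℤ → ℂ := fun m => cotPi ((m : ℂ) * τ + 2 * z) with hc2
  set c2' : ℤ → ℂ := fun m => c2 (m + 1) with hc2'
  have hD : HasSum (fun m : ℤ => -((c2 m - c2 (m + 1)) + (c2' m - c2' (m + 1))) +
      2 * (c1 m - c1 (m + 1))) (S (z + τ) τ - S z τ) := by
    refine ((hasSum_R hz.add_tau).sub (hasSum_R hz)).congr_fun fun m => ?_
    simp only [R, hc1, hc2, hc2']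
    rw [show (m : ℂ) * τ + 2 * (z + τ) = ((m + 1 + 1 : ℤ) : ℂ) * τ + 2 * z by push_cast; ring,
      show (m : ℂ) * τ + (z + τ) = ((m + 1 : ℤ) : ℂ) * τ + z by push_cast; ring]
    ring
  have hD' : HasSum (fun m : ℤ => -((c2 m - c2 (m + 1)) + (c2' m - c2' (m + 1))) +
      2 * (c1 m - c1 (m + 1))) (S (z + τ) τ - S z τ) (SummationFilter.symmetricIco ℤ) :=
    hD.mono_left (SummationFilter.symmetricIco ℤ).le_atTop
  rw [SummationFilter.hasSum_symmetricIco_int_iff] at hD'
  have hlim : Tendsto (fun N : ℕ => ∑ m ∈ Finset.Ico (-(N : ℤ)) (N : ℤ),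
      (-((c2 m - c2 (m + 1)) + (c2' m - c2' (m + 1))) + 2 * (c1 m - c1 (m + 1)))) atTop (𝓝 0) := by
    have e : ∀ N : ℕ, ∑ m ∈ Finset.Ico (-(N : ℤ)) (N : ℤ),
        (-((c2 m - c2 (m + 1)) + (c2' m - c2' (m + 1))) + 2 * (c1 m - c1 (m + 1))) =
        -((c2 (-N) - c2 N) + (c2' (-N) - c2' N)) + 2 * (c1 (-N) - c1 N) := by
      intro N
      rw [Finset.sum_add_distrib, Finset.sum_neg_distrib, Finset.sum_add_distrib, ← Finset.mul_sum,
        Finset.sum_Ico_int_sub, Finset.sum_Ico_int_sub, Finset.sum_Ico_int_sub]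
    simp only [e]
    have t1 : Tendsto (fun N : ℕ => c1 (-(N : ℤ))) atTop (𝓝 (π * I)) := by
      refine (tendsto_cotPi_atBot τ z).congr fun N => ?_
      simp [hc1]
    have t2 : Tendsto (fun N : ℕ => c1 (N : ℤ)) atTop (𝓝 (-(π * I))) := by
      refine (tendsto_cotPi_atTop τ z).congr fun N => ?_
      simp [hc1]
    have t3 : Tendsto (fun N : ℕ => c2 (-(N : ℤ))) atTop (𝓝 (π * I)) := by
      refine (tendsto_cotPi_atBot τ (2 * z)).congr fun N => ?_
      simp [hc2]
    have t4 : Tendsto (fun N : ℕ => c2 (N : ℤ)) atTop (𝓝 (-(π * I))) := by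
      refine (tendsto_cotPi_atTop τ (2 * z)).congr fun N => ?_
      simp [hc2]
    have t5 : Tendsto (fun N : ℕ => c2' (-(N : ℤ))) atTop (𝓝 (π * I)) := by
      refine (tendsto_cotPi_atBot τ (τ + 2 * z)).congr fun N => ?_
      simp only [hc2', hc2]
      congr 1
      push_cast
      ring
    have t6 : Tendsto (fun N : ℕ => c2' (N : ℤ)) atTop (𝓝 (-(π * I))) := by
      refine (tendsto_cotPi_atTop τ (τ + 2 * z)).congr fun N => ?_
      simp only [hc2', hc2]
      congr 1
      push_cast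
      ring
    have t := (((t3.sub t4).add (t5.sub t6)).neg).add (((t1.sub t2)).const_mul 2)
    have h0 : -((π * I - -(π * I)) + (π * I - -(π * I))) + 2 * (π * I - -(π * I)) = (0 : ℂ) := by
      ring
    rw [h0] at t
    exact t
  have := tendsto_nhds_unique hD' hlim
  exact sub_eq_zero.mp this

lemma Gen.add_lattice {τ : ℍ} {z : ℂ} (hz : Gen τ z) (m n : ℤ) :
    Gen τ (z + (m : ℂ) * τ + n) := by
  intro m' n' h
  refine hz (m' - 2 * m) (n' - 2 * n) ?_
  push_cast
  linear_combination h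

theorem S_add_int {τ : ℍ} {z : ℂ} (hz : Gen τ z) (n : ℤ) : S (z + n) τ = S z τ := by
  induction n using Int.induction_on with
  | zero => simp
  | succ k ih =>
    have h1 : Gen τ (z + (k : ℤ)) := by simpa using hz.add_lattice 0 k
    have h2 := S_add_one h1
    rw [← ih, ← h2]
    congr 1
    push_cast
    ring
  | pred k ih =>
    have h1 : Gen τ (z + ((-(k : ℤ) - 1 : ℤ) : ℂ)) := by simpa using hz.add_lattice 0 (-(k : ℤ) - 1)
    have h2 := S_add_one h1
    rw [← ih, ← h2]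
    congr 1
    push_cast
    ring

theorem S_add_int_mul {τ : ℍ} {z : ℂ} (hz : Gen τ z) (m : ℤ) :
    S (z + (m : ℂ) * τ) τ = S z τ := by
  induction m using Int.induction_on with
  | zero => simp
  | succ k ih =>
    have h1 : Gen τ (z + ((k : ℤ) : ℂ) * τ) := by simpa using hz.add_lattice k 0
    have h2 := S_add_tau h1
    rw [← ih, ← h2]
    congr 1
    push_cast
    ring
  | pred k ih =>
    have h1 : Gen τ (z + ((-(k : ℤ) - 1 : ℤ) : ℂ) * τ) := by
      simpa using hz.add_lattice (-(k : ℤ) - 1) 0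
    have h2 := S_add_tau h1
    rw [← ih, ← h2]
    congr 1
    push_cast
    ring

/-- `z ↦ S z τ` is periodic with respect to the lattice `ℤτ + ℤ` (away from the poles). -/
theorem S_add_lattice {τ : ℍ} {z : ℂ} (hz : Gen τ z) (m n : ℤ) :
    S (z + (m : ℂ) * τ + n) τ = S z τ := by
  have h1 : Gen τ (z + (m : ℂ) * τ) := by simpa using hz.add_lattice m 0
  rw [S_add_int h1 n, S_add_int_mul hz m]

/-! ### Bounds for the cotangent away from the real axis -/

lemma cotPi_add_pi_I {u : ℂ} (hu : 0 < u.im) :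
    cotPi u + π * I = 2 * π * Complex.exp (2 * π * I * u) /
      (I * (1 - Complex.exp (2 * π * I * u))) := by
  have hnorm : ‖Complex.exp (2 * π * I * u)‖ < 1 := by
    rw [Complex.norm_exp]
    have : (2 * π * I * u).re = -(2 * π * u.im) := by simp
    rw [this, Real.exp_lt_one_iff]
    have := Real.pi_pos
    nlinarith
  have hne : 1 - Complex.exp (2 * π * I * u) ≠ 0 := by
    intro h
    have h1 : Complex.exp (2 * π * I * u) = 1 := (sub_eq_zero.mp h).symm
    rw [h1, norm_one] at hnorm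
    exact lt_irrefl _ hnorm
  have hne' : I * (1 - Complex.exp (2 * π * I * u)) ≠ 0 := mul_ne_zero Complex.I_ne_zero hne
  rw [cotPi, Complex.cot_pi_eq_exp_ratio, eq_div_iff hne']
  have h := div_mul_cancel₀ (Complex.exp (2 * π * I * u) + 1) hne'
  calc (π * ((Complex.exp (2 * π * I * u) + 1) / (I * (1 - Complex.exp (2 * π * I * u)))) + π * I) *
        (I * (1 - Complex.exp (2 * π * I * u)))
      = π * ((Complex.exp (2 * π * I * u) + 1) / (I * (1 - Complex.exp (2 * π * I * u))) *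
          (I * (1 - Complex.exp (2 * π * I * u)))) +
          π * (I * I) * (1 - Complex.exp (2 * π * I * u)) := by ring
    _ = π * (Complex.exp (2 * π * I * u) + 1) + π * (-1) * (1 - Complex.exp (2 * π * I * u)) := by
        rw [h, Complex.I_mul_I]
    _ = 2 * π * Complex.exp (2 * π * I * u) := by ring

lemma norm_cotPi_add_le {u : ℂ} {δ : ℝ} (hδ : 0 < δ) (hu : δ ≤ u.im) :
    ‖cotPi u + π * I‖ ≤ 2 * π * Real.exp (-(2 * π * δ)) / (1 - Real.exp (-(2 * π * δ))) := by
  have hpi := Real.pi_pos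
  have hu0 : 0 < u.im := lt_of_lt_of_le hδ hu
  have hnorm : ‖Complex.exp (2 * π * I * u)‖ = Real.exp (-(2 * π * u.im)) := by
    rw [Complex.norm_exp]
    congr 1
    simp
  have hle : Real.exp (-(2 * π * u.im)) ≤ Real.exp (-(2 * π * δ)) := by
    apply Real.exp_le_exp.mpr
    nlinarith
  have hlt : Real.exp (-(2 * π * δ)) < 1 := by
    rw [Real.exp_lt_one_iff]
    nlinarith
  have h1 : 1 - Real.exp (-(2 * π * δ)) ≤ ‖1 - Complex.exp (2 * π * I * u)‖ := by
    have := norm_sub_norm_le (1 : ℂ) (Complex.exp (2 * π * I * u))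
    rw [norm_one, hnorm] at this
    linarith
  rw [cotPi_add_pi_I hu0, norm_div, norm_mul, norm_mul, norm_mul, hnorm, Complex.norm_I, one_mul,
    Complex.norm_ofNat, Complex.norm_real, Real.norm_of_nonneg hpi.le]
  exact div_le_div₀ (by positivity) (by gcongr) (by linarith) h1

lemma norm_cotPi_sub_le {u : ℂ} {δ : ℝ} (hδ : 0 < δ) (hu : u.im ≤ -δ) :
    ‖cotPi u - π * I‖ ≤ 2 * π * Real.exp (-(2 * π * δ)) / (1 - Real.exp (-(2 * π * δ))) := by
  have h := norm_cotPi_add_le (u := -u) hδ (by simp only [neg_im]; linarith)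
  rw [cotPi_neg] at h
  rwa [show -cotPi u + π * I = -(cotPi u - π * I) by ring, norm_neg] at h

/-- A crude bound `π + 2π/(1 - e^{-2πδ})` for `cotPi u` when `|Im u| ≥ δ`. -/
lemma norm_cotPi_le {u : ℂ} {δ : ℝ} (hδ : 0 < δ) (hu : δ ≤ |u.im|) :
    ‖cotPi u‖ ≤ π + 2 * π / (1 - Real.exp (-(2 * π * δ))) := by
  have hpi := Real.pi_pos
  have hlt : Real.exp (-(2 * π * δ)) < 1 := by
    rw [Real.exp_lt_one_iff]
    nlinarith
  have hle1 : 2 * π * Real.exp (-(2 * π * δ)) / (1 - Real.exp (-(2 * π * δ))) ≤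
      2 * π / (1 - Real.exp (-(2 * π * δ))) := by
    apply div_le_div_of_nonneg_right _ (by linarith)
    nlinarith [Real.exp_pos (-(2 * π * δ))]
  have hI : ‖(π : ℂ) * I‖ = π := by
    rw [norm_mul, Complex.norm_I, mul_one, Complex.norm_real, Real.norm_of_nonneg hpi.le]
  rcases le_abs.mp hu with h | h
  · have h1 := norm_cotPi_add_le hδ h
    have h2 : ‖cotPi u‖ ≤ ‖cotPi u + π * I‖ + ‖(π : ℂ) * I‖ := by
      have := norm_sub_le (cotPi u + π * I) (π * I)
      simpa using this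
    linarith
  · have h1 := norm_cotPi_sub_le hδ (by linarith : u.im ≤ -δ)
    have h2 : ‖cotPi u‖ ≤ ‖cotPi u - π * I‖ + ‖(π : ℂ) * I‖ := by
      have := norm_add_le (cotPi u - π * I) (π * I)
      simpa using this
    linarith

end

end Fermat.Agent.DS.Eis1
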