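import Mathlib
import Fermat.Agent.DS.Eis1.Cot

/-!
# Weight-one Eisenstein series, part 3: the modular forms `Phi ℓ a`

`Phi ℓ a τ = S ((a₀ τ + a₁)/ℓ) τ` satisfies `Phi ℓ a ∣[1] γ = Phi ℓ (a ᵥ* γ)` for `γ ∈ SL(2,ℤ)`,
depends only on `a` mod `ℓ` (when `ℓ ∤ 2a`), and is bounded at `i∞`.
-/

set_option autoImplicit false

namespace Fermat.Agent.DS.Eis1

open Complex Filter Topology Matrix
open UpperHalfPlane hiding I
open scoped Real MatrixGroups ModularForm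

noncomputable section

/-- The torsion point `(a₀ τ + a₁)/ℓ` is generic iff `ℓ ∤ 2a`. -/
def Good (ℓ : ℕ) (a : Fin 2 → ℤ) : Prop := ¬ ((ℓ : ℤ) ∣ 2 * a 0 ∧ (ℓ : ℤ) ∣ 2 * a 1)

lemma gen_of_good {ℓ : ℕ} (hℓ : ℓ ≠ 0) {a : Fin 2 → ℤ} (h : Good ℓ a) (τ : ℍ) :
    Gen τ (((a 0 : ℂ) * τ + a 1) / ℓ) := by
  intro m n hmn
  have hℓ' : (ℓ : ℂ) ≠ 0 := Nat.cast_ne_zero.mpr hℓ
  have h1 : (((2 * a 0 - ℓ * m : ℤ) : ℂ)) * τ + ((2 * a 1 - ℓ * n : ℤ) : ℂ) = 0 := by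
    have : 2 * ((a 0 : ℂ) * τ + a 1) = ℓ * ((m : ℂ) * τ + n) := by
      rw [← hmn]
      field_simp
    push_cast
    linear_combination this
  have him := congrArg Complex.im h1
  simp only [add_im, mul_im, intCast_re, intCast_im, zero_mul, add_zero, zero_im,
    UpperHalfPlane.coe_im] at him
  have h0 : ((2 * a 0 - ℓ * m : ℤ) : ℝ) = 0 := by
    rcases mul_eq_zero.mp him with h | h
    · exact h
    · exact absurd h τ.im_pos.ne'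
  have h0' : 2 * a 0 - ℓ * m = 0 := by exact_mod_cast h0
  rw [h0'] at h1
  simp only [Int.cast_zero, zero_mul, zero_add] at h1
  have h1' : 2 * a 1 - ℓ * n = 0 := by exact_mod_cast h1
  exact h ⟨⟨m, by linarith⟩, ⟨n, by linarith⟩⟩

/-- `Phi ℓ a` only depends on `a` modulo `ℓ`. -/
theorem Phi_add_smul {ℓ : ℕ} (hℓ : ℓ ≠ 0) {a : Fin 2 → ℤ} (h : Good ℓ a) (b : Fin 2 → ℤ) :
    Phi ℓ (a + (ℓ : ℤ) • b) = Phi ℓ a := by
  ext τ
  have hℓ' : (ℓ : ℂ) ≠ 0 := Nat.cast_ne_zero.mpr hℓ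
  have := S_add_lattice (gen_of_good hℓ h τ) (b 0) (b 1)
  simp only [Phi]
  rw [← this]
  congr 1
  simp only [Pi.add_apply, Pi.smul_apply, smul_eq_mul]
  push_cast
  field_simp
  ring

lemma Good.vecMul {ℓ : ℕ} {a : Fin 2 → ℤ} (h : Good ℓ a) (γ : SL(2, ℤ)) :
    Good ℓ (a ᵥ* (γ : Matrix (Fin 2) (Fin 2) ℤ)) := by
  intro h'
  apply h
  have hdet : (γ 0 0 : ℤ) * γ 1 1 - γ 0 1 * γ 1 0 = 1 := by
    have := γ.det_coe
    rw [Matrix.det_fin_two] at this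
    exact this
  obtain ⟨⟨x, hx⟩, ⟨y, hy⟩⟩ := h'
  simp only [Matrix.vecMul, vec2_dotProduct] at hx hy
  constructor
  · refine ⟨x * γ 1 1 - y * γ 1 0, ?_⟩
    linear_combination (-(2 * a 0)) * hdet + (γ 1 1 : ℤ) * hx - (γ 1 0 : ℤ) * hy
  · refine ⟨y * γ 0 0 - x * γ 0 1, ?_⟩
    linear_combination (-(2 * a 1)) * hdet + (γ 0 0 : ℤ) * hy - (γ 0 1 : ℤ) * hx

/-- The transformation law of the family `Phi ℓ a` under `SL(2,ℤ)`. -/
theorem Phi_slash (ℓ : ℕ) (a : Fin 2 → ℤ) (γ : SL(2, ℤ)) :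
    Phi ℓ a ∣[(1 : ℤ)] γ = Phi ℓ (a ᵥ* (γ : Matrix (Fin 2) (Fin 2) ℤ)) := by
  ext τ
  rw [ModularForm.SL_slash_apply]
  simp only [Phi]
  rw [lin_smul γ τ a, mul_div_assoc, S_smul]
  have hd : denom γ τ ≠ 0 := denom_ne_zero γ τ
  rw [_root_.zpow_neg, zpow_one]
  field_simp

/-! ### Boundedness at `i∞` -/

lemma cotPi_decay_pos {u0 u1 u2 : ℂ} {δ : ℝ} (hδ : 1 ≤ δ) (h0 : δ ≤ u0.im) (h1 : δ ≤ u1.im)
    (h2 : δ ≤ u2.im) :
    ‖cotPi u2 - 2 * cotPi u1 + cotPi u0‖ ≤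
      4 * (2 * π / (1 - Real.exp (-(2 * π)))) * Real.exp (-(2 * π * δ)) := by
  have hpi := Real.pi_pos
  have hδ0 : 0 < δ := by linarith
  have hlt : Real.exp (-(2 * π)) < 1 := by
    rw [Real.exp_lt_one_iff]; linarith
  have hle : Real.exp (-(2 * π * δ)) ≤ Real.exp (-(2 * π)) := by
    apply Real.exp_le_exp.mpr; nlinarith
  have key : 2 * π * Real.exp (-(2 * π * δ)) / (1 - Real.exp (-(2 * π * δ))) ≤
      (2 * π / (1 - Real.exp (-(2 * π)))) * Real.exp (-(2 * π * δ)) := by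
    rw [div_mul_eq_mul_div]
    exact div_le_div_of_nonneg_left (by positivity) (by linarith) (by linarith)
  have e0 := (norm_cotPi_add_le hδ0 h0).trans key
  have e1 := (norm_cotPi_add_le hδ0 h1).trans key
  have e2 := (norm_cotPi_add_le hδ0 h2).trans key
  have hsplit : cotPi u2 - 2 * cotPi u1 + cotPi u0 =
      (cotPi u2 + π * I) - 2 * (cotPi u1 + π * I) + (cotPi u0 + π * I) := by ring
  rw [hsplit]
  have hn1 : ‖(cotPi u2 + π * I) - 2 * (cotPi u1 + π * I) + (cotPi u0 + π * I)‖ ≤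
      ‖cotPi u2 + π * I‖ + 2 * ‖cotPi u1 + π * I‖ + ‖cotPi u0 + π * I‖ := by
    refine (norm_add_le _ _).trans ?_
    refine add_le_add_left ((norm_sub_le _ _).trans ?_) _
    rw [norm_mul, Complex.norm_ofNat]
  linarith

lemma cotPi_decay_neg {u0 u1 u2 : ℂ} {δ : ℝ} (hδ : 1 ≤ δ) (h0 : u0.im ≤ -δ) (h1 : u1.im ≤ -δ)
    (h2 : u2.im ≤ -δ) :
    ‖cotPi u2 - 2 * cotPi u1 + cotPi u0‖ ≤
      4 * (2 * π / (1 - Real.exp (-(2 * π)))) * Real.exp (-(2 * π * δ)) := by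
  have h := cotPi_decay_pos (u0 := -u0) (u1 := -u1) (u2 := -u2) hδ
    (by simp only [neg_im]; linarith) (by simp only [neg_im]; linarith)
    (by simp only [neg_im]; linarith)
  rw [cotPi_neg, cotPi_neg, cotPi_neg] at h
  rwa [show -cotPi u2 - 2 * -cotPi u1 + -cotPi u0 = -(cotPi u2 - 2 * cotPi u1 + cotPi u0) by ring,
    norm_neg] at h

/-- The constant in the uniform bound for the cotangent terms. -/
def Kb (ℓ : ℕ) (a : Fin 2 → ℤ) : ℝ :=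
  π + 2 * π / (1 - Real.exp (-(2 * π * (1 / (ℓ : ℝ))))) + ‖cotPi ((a 1 : ℂ) / ℓ)‖ +
    ‖cotPi ((2 * a 1 : ℤ) / ℓ)‖

lemma one_sub_exp_pos {x : ℝ} (hx : 0 < x) : 0 < 1 - Real.exp (-(2 * π * x)) := by
  have hpi := Real.pi_pos
  have : Real.exp (-(2 * π * x)) < 1 := by
    rw [Real.exp_lt_one_iff]; nlinarith
  linarith

lemma norm_cotPi_lin_le {ℓ : ℕ} (hℓ : 0 < ℓ) (τ : ℍ) (hτ : 1 ≤ τ.im) (c d : ℤ) :
    ‖cotPi (((c : ℂ) * τ + d) / ℓ)‖ ≤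
      π + 2 * π / (1 - Real.exp (-(2 * π * (1 / (ℓ : ℝ))))) + ‖cotPi ((d : ℂ) / ℓ)‖ := by
  have hpi := Real.pi_pos
  have hℓ' : (0 : ℝ) < ℓ := Nat.cast_pos.mpr hℓ
  have hpos := one_sub_exp_pos (x := 1 / (ℓ : ℝ)) (by positivity)
  rcases eq_or_ne c 0 with rfl | hc
  · simp only [Int.cast_zero, zero_mul, zero_add]
    have : 0 ≤ π + 2 * π / (1 - Real.exp (-(2 * π * (1 / (ℓ : ℝ))))) := by positivity
    linarith
  · have him : (((c : ℂ) * τ + d) / ℓ).im = (c : ℝ) * τ.im / ℓ := by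
      rw [Complex.div_natCast_im]
      simp
    have h1 : 1 / (ℓ : ℝ) ≤ |(((c : ℂ) * τ + d) / ℓ).im| := by
      rw [him, abs_div, abs_mul, abs_of_pos hℓ', abs_of_pos τ.im_pos]
      apply div_le_div_of_nonneg_right _ hℓ'.le
      have hc1 : (1 : ℝ) ≤ |(c : ℝ)| := by
        have := Int.one_le_abs hc
        exact_mod_cast this
      nlinarith [τ.im_pos]
    have := norm_cotPi_le (δ := 1 / (ℓ : ℝ)) (by positivity) h1
    linarith [norm_nonneg (cotPi ((d : ℂ) / ℓ))]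

lemma Kb_nonneg {ℓ : ℕ} (hℓ : 0 < ℓ) (a : Fin 2 → ℤ) : 0 ≤ Kb ℓ a := by
  have hpi := Real.pi_pos
  have hpos := one_sub_exp_pos (x := 1 / (ℓ : ℝ)) (by positivity)
  unfold Kb
  positivity

lemma le_Kb {ℓ : ℕ} (hℓ : 0 < ℓ) (a : Fin 2 → ℤ) :
    2 * π / (1 - Real.exp (-(2 * π))) ≤ Kb ℓ a := by
  have hpi := Real.pi_pos
  have hℓ' : (1 : ℝ) ≤ ℓ := by exact_mod_cast hℓ
  have hpos := one_sub_exp_pos (x := 1 / (ℓ : ℝ)) (by positivity)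
  have hpos1 := one_sub_exp_pos (x := 1) (by norm_num)
  rw [mul_one] at hpos1
  have h1 : Real.exp (-(2 * π)) ≤ Real.exp (-(2 * π * (1 / (ℓ : ℝ)))) := by
    apply Real.exp_le_exp.mpr
    have : 1 / (ℓ : ℝ) ≤ 1 := by
      rw [div_le_one (by linarith)]; exact hℓ'
    nlinarith
  have h2 : 2 * π / (1 - Real.exp (-(2 * π))) ≤
      2 * π / (1 - Real.exp (-(2 * π * (1 / (ℓ : ℝ))))) :=
    div_le_div_of_nonneg_left (by positivity) hpos (by linarith)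
  unfold Kb
  linarith [norm_nonneg (cotPi ((a 1 : ℂ) / ℓ)), norm_nonneg (cotPi (((2 * a 1 : ℤ) : ℂ) / ℓ))]

/-- Uniform exponential bound for the rows of `Phi ℓ a` in the region `Im τ ≥ 1`. -/
theorem norm_R_le {ℓ : ℕ} (hℓ : 0 < ℓ) (a : Fin 2 → ℤ) (τ : ℍ) (hτ : 1 ≤ τ.im) (m : ℤ) :
    ‖R τ (((a 0 : ℂ) * τ + a 1) / ℓ) m‖ ≤
      4 * Kb ℓ a * Real.exp (2 * π * (2 * |(a 0 : ℝ)|)) * Real.exp (-(2 * π * |(m : ℝ)|)) := by
  have hpi := Real.pi_pos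
  have hℓ' : (0 : ℝ) < ℓ := Nat.cast_pos.mpr hℓ
  have hℓ1 : (1 : ℝ) ≤ ℓ := by exact_mod_cast hℓ
  have hℓc : (ℓ : ℂ) ≠ 0 := Nat.cast_ne_zero.mpr hℓ.ne'
  have hK := Kb_nonneg hℓ a
  have hy := τ.im_pos
  set z : ℂ := ((a 0 : ℂ) * τ + a 1) / ℓ with hz
  set A : ℝ := 2 * |(a 0 : ℝ)| with hA
  have hA0 : 0 ≤ A := by positivity
  -- imaginary parts
  have himz : z.im = (a 0 : ℝ) * τ.im / ℓ := by
    rw [hz, Complex.div_natCast_im]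
    simp
  have habs : |z.im| ≤ |(a 0 : ℝ)| * τ.im := by
    rw [himz, abs_div, abs_mul, abs_of_pos hℓ', abs_of_pos hy]
    rw [div_le_iff₀ hℓ']
    have : 0 ≤ |(a 0 : ℝ)| * τ.im := by positivity
    nlinarith
  have him0 : ((m : ℂ) * τ).im = m * τ.im := by simp
  have him1 : ((m : ℂ) * τ + z).im = m * τ.im + z.im := by simp
  have him2 : ((m : ℂ) * τ + 2 * z).im = m * τ.im + 2 * z.im := by simp
  have hzl := (abs_le.mp habs).1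
  have hzu := (abs_le.mp habs).2
  have hKle := le_Kb hℓ a
  have hexpA : Real.exp (2 * π * A) * Real.exp (-(2 * π * |(m : ℝ)|)) =
      Real.exp (-(2 * π * (|(m : ℝ)| - A))) := by
    rw [← Real.exp_add]
    congr 1
    ring
  rw [mul_assoc, hexpA]
  have hAint : A = ((2 * |a 0| : ℤ) : ℝ) := by
    rw [hA]; push_cast; ring
  by_cases hm1 : 2 * |a 0| < m
  · -- large positive `m`
    have hmA : A + 1 ≤ (m : ℝ) := by
      rw [hAint]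
      exact_mod_cast hm1
    have hmabs : |(m : ℝ)| = m := abs_of_nonneg (by linarith)
    have hδ : 1 ≤ (m : ℝ) - A := by linarith
    have hbase : (m : ℝ) - A ≤ m * τ.im - A * τ.im := by nlinarith
    have h0 : (m : ℝ) - A ≤ ((m : ℂ) * τ).im := by
      rw [him0]; nlinarith
    have h1 : (m : ℝ) - A ≤ ((m : ℂ) * τ + z).im := by
      rw [him1]; nlinarith [abs_nonneg (a 0 : ℝ)]
    have h2 : (m : ℝ) - A ≤ ((m : ℂ) * τ + 2 * z).im := by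
      rw [him2]; nlinarith
    have := cotPi_decay_pos hδ h0 h1 h2
    rw [hmabs]
    refine this.trans ?_
    have hexp := Real.exp_pos (-(2 * π * ((m : ℝ) - A)))
    nlinarith
  by_cases hm2 : m < -(2 * |a 0|)
  · -- large negative `m`
    have hmA : (m : ℝ) ≤ -A - 1 := by
      rw [hAint]
      have : m ≤ -(2 * |a 0|) - 1 := by omega
      exact_mod_cast this
    have hmabs : |(m : ℝ)| = -m := abs_of_nonpos (by linarith)
    have hδ : 1 ≤ -(m : ℝ) - A := by linarith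
    have hbase : m * τ.im + A * τ.im ≤ (m : ℝ) + A := by nlinarith
    have h0 : ((m : ℂ) * τ).im ≤ -(-(m : ℝ) - A) := by
      rw [him0]; nlinarith
    have h1 : ((m : ℂ) * τ + z).im ≤ -(-(m : ℝ) - A) := by
      rw [him1]; nlinarith [abs_nonneg (a 0 : ℝ)]
    have h2 : ((m : ℂ) * τ + 2 * z).im ≤ -(-(m : ℝ) - A) := by
      rw [him2]; nlinarith
    have := cotPi_decay_neg hδ h0 h1 h2
    rw [hmabs]
    refine this.trans ?_
    have hexp := Real.exp_pos (-(2 * π * (-(m : ℝ) - A)))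
    nlinarith
  · -- small `|m|`
    have hmabs : |(m : ℝ)| ≤ A := by
      rw [hAint, abs_le]
      constructor
      · have : -(2 * |a 0|) ≤ m := by omega
        exact_mod_cast this
      · have : m ≤ 2 * |a 0| := by omega
        exact_mod_cast this
    have e0 : (m : ℂ) * τ = (((ℓ * m : ℤ) : ℂ) * τ + ((0 : ℤ) : ℂ)) / ℓ := by
      push_cast; field_simp; ring
    have e1 : (m : ℂ) * τ + z = (((ℓ * m + a 0 : ℤ) : ℂ) * τ + ((a 1 : ℤ) : ℂ)) / ℓ := by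
      rw [hz]; push_cast; field_simp; ring
    have e2 : (m : ℂ) * τ + 2 * z =
        (((ℓ * m + 2 * a 0 : ℤ) : ℂ) * τ + ((2 * a 1 : ℤ) : ℂ)) / ℓ := by
      rw [hz]; push_cast; field_simp; ring
    have b0 := norm_cotPi_lin_le hℓ τ hτ (ℓ * m) 0
    have b1 := norm_cotPi_lin_le hℓ τ hτ (ℓ * m + a 0) (a 1)
    have b2 := norm_cotPi_lin_le hℓ τ hτ (ℓ * m + 2 * a 0) (2 * a 1)
    rw [← e0] at b0
    rw [← e1] at b1
    rw [← e2] at b2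
    have hc0 : ‖cotPi (((0 : ℤ) : ℂ) / ℓ)‖ = 0 := by simp [cotPi_zero]
    rw [hc0] at b0
    have hn : ‖R τ z m‖ ≤ ‖cotPi ((m : ℂ) * τ + 2 * z)‖ + 2 * ‖cotPi ((m : ℂ) * τ + z)‖ +
        ‖cotPi ((m : ℂ) * τ)‖ := by
      unfold R
      refine (norm_add_le _ _).trans ?_
      refine add_le_add_left ((norm_sub_le _ _).trans ?_) _
      rw [norm_mul, Complex.norm_ofNat]
    have hn0 := norm_nonneg (cotPi ((a 1 : ℂ) / ℓ))
    have hn1 := norm_nonneg (cotPi (((2 * a 1 : ℤ) : ℂ) / ℓ))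
    have h4 : ‖R τ z m‖ ≤ 4 * Kb ℓ a := by
      unfold Kb
      linarith
    refine h4.trans ?_
    have hge : 1 ≤ Real.exp (-(2 * π * (|(m : ℝ)| - A))) := by
      apply Real.one_le_exp
      have h5 : 0 ≤ 2 * π * (A - |(m : ℝ)|) := mul_nonneg (by positivity) (sub_nonneg.mpr hmabs)
      linarith
    exact le_mul_of_one_le_right (by positivity) hge

lemma summable_exp_neg_abs : Summable (fun m : ℤ => Real.exp (-(2 * π * |(m : ℝ)|))) := by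
  have hpi := Real.pi_pos
  have hr : Real.exp (-(2 * π)) < 1 := by
    rw [Real.exp_lt_one_iff]; linarith
  have hgeo := summable_geometric_of_lt_one (Real.exp_pos _).le hr
  refine Summable.of_nat_of_neg_add_one ?_ ?_
  · refine hgeo.congr fun n => ?_
    rw [← Real.exp_nat_mul]
    congr 1
    simp only [Int.cast_natCast, Nat.abs_cast]
    ring
  · refine ((summable_nat_add_iff 1).mpr hgeo).congr fun n => ?_
    rw [← Real.exp_nat_mul]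
    congr 1
    push_cast
    rw [abs_neg, abs_of_nonneg (by positivity)]
    ring

/-- `Phi ℓ a` is bounded at `i∞`. -/
theorem isBoundedAtImInfty_Phi {ℓ : ℕ} (hℓ : 0 < ℓ) {a : Fin 2 → ℤ} (h : Good ℓ a) :
    IsBoundedAtImInfty (Phi ℓ a) := by
  rw [UpperHalfPlane.isBoundedAtImInfty_iff]
  have hs : Summable (fun m : ℤ => 4 * Kb ℓ a * Real.exp (2 * π * (2 * |(a 0 : ℝ)|)) *
      Real.exp (-(2 * π * |(m : ℝ)|))) := summable_exp_neg_abs.mul_left _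
  refine ⟨∑' m : ℤ, 4 * Kb ℓ a * Real.exp (2 * π * (2 * |(a 0 : ℝ)|)) *
      Real.exp (-(2 * π * |(m : ℝ)|)), 1, fun τ hτ => ?_⟩
  have hR := hasSum_R (gen_of_good hℓ.ne' h τ)
  have e : Phi ℓ a τ = ∑' m, R τ (((a 0 : ℂ) * τ + a 1) / ℓ) m := hR.tsum_eq.symm
  rw [e]
  exact tsum_of_norm_bounded hs.hasSum (fun m => norm_R_le hℓ a τ hτ m)

/-- `Phi ℓ a` is bounded at every cusp. -/
theorem Phi_isBoundedAt {ℓ : ℕ} (hℓ : 0 < ℓ) {a : Fin 2 → ℤ} (h : Good ℓ a) {c : OnePoint ℝ}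
    (hc : IsCusp c 𝒮ℒ) : c.IsBoundedAt (Phi ℓ a) 1 :=
  (OnePoint.isBoundedAt_iff_forall_SL2Z hc).mpr fun γ _ => by
    rw [Phi_slash]
    exact isBoundedAtImInfty_Phi hℓ (h.vecMul γ)

/-! ### The forms on `Γ₁(ℓ)` -/

lemma good_zero_iff (ℓ : ℕ) (k : ℤ) : Good ℓ ![0, k] ↔ ¬ (ℓ : ℤ) ∣ 2 * k := by
  simp [Good]

lemma vecMul_apply_two (a : Fin 2 → ℤ) (M : Matrix (Fin 2) (Fin 2) ℤ) (j : Fin 2) :
    (a ᵥ* M) j = a 0 * M 0 j + a 1 * M 1 j := by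
  simp [Matrix.vecMul, dotProduct, Fin.sum_univ_two]

/-- Diamond-type relation: for `γ ∈ Γ₀(ℓ)` the form `Phi ℓ (0, k)` is sent to
`Phi ℓ (0, k γ₁₁)`. -/
theorem Phi_slash_Gamma0 {ℓ : ℕ} (hℓ : 0 < ℓ) {k : ℤ} (hk : ¬ (ℓ : ℤ) ∣ 2 * k) (γ : SL(2, ℤ))
    (hγ : γ ∈ CongruenceSubgroup.Gamma0 ℓ) :
    Phi ℓ ![0, k] ∣[(1 : ℤ)] γ = Phi ℓ ![0, k * γ 1 1] := by
  rw [Phi_slash]
  have hgood : Good ℓ (![0, k] ᵥ* (γ : Matrix (Fin 2) (Fin 2) ℤ)) :=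
    ((good_zero_iff ℓ k).mpr hk).vecMul γ
  rw [CongruenceSubgroup.Gamma0_mem, ZMod.intCast_zmod_eq_zero_iff_dvd] at hγ
  obtain ⟨t, ht⟩ := hγ
  rw [← Phi_add_smul hℓ.ne' hgood ![-(k * t), 0]]
  congr 1
  ext i
  fin_cases i
  · show (![0, k] ᵥ* (γ : Matrix (Fin 2) (Fin 2) ℤ)) 0 + (ℓ : ℤ) * (-(k * t)) = 0
    rw [vecMul_apply_two, ht]
    simp
    ring
  · show (![0, k] ᵥ* (γ : Matrix (Fin 2) (Fin 2) ℤ)) 1 + (ℓ : ℤ) * 0 = k * γ 1 1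
    rw [vecMul_apply_two]
    simp

/-- `Phi ℓ (0, k)` is invariant under `Γ₁(ℓ)` in weight one. -/
theorem Phi_slash_Gamma1 {ℓ : ℕ} (hℓ : 0 < ℓ) {k : ℤ} (hk : ¬ (ℓ : ℤ) ∣ 2 * k) (γ : SL(2, ℤ))
    (hγ : γ ∈ CongruenceSubgroup.Gamma1 ℓ) :
    Phi ℓ ![0, k] ∣[(1 : ℤ)] γ = Phi ℓ ![0, k] := by
  rw [Phi_slash_Gamma0 hℓ hk γ (CongruenceSubgroup.Gamma1_in_Gamma0 ℓ hγ)]
  rw [CongruenceSubgroup.Gamma1_mem] at hγ
  have h11 : (ℓ : ℤ) ∣ γ 1 1 - 1 := by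
    have h' : ((γ 1 1 : ℤ) : ZMod ℓ) = ((1 : ℤ) : ZMod ℓ) := by simpa using hγ.2.1
    obtain ⟨t, ht⟩ := (ZMod.intCast_eq_intCast_iff_dvd_sub _ _ _).mp h'
    exact ⟨-t, by linarith⟩
  obtain ⟨t, ht⟩ := h11
  have hgood : Good ℓ ![0, k] := (good_zero_iff ℓ k).mpr hk
  rw [← Phi_add_smul hℓ.ne' hgood ![0, k * t]]
  congr 1
  ext i
  fin_cases i
  · simp
  · simp
    linear_combination k * ht

open scoped Manifold in
/-- The weight-one Eisenstein series `Phi ℓ (0, k)` as a modular form on `Γ₁(ℓ)`. -/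
def eisOne (ℓ : ℕ) (hℓ : 0 < ℓ) (k : ℤ) (hk : ¬ (ℓ : ℤ) ∣ 2 * k) :
    ModularForm (CongruenceSubgroup.Gamma1 ℓ) 1 where
  toFun := Phi ℓ ![0, k]
  slash_action_eq' γ hγ := by
    obtain ⟨γ₀, hγ₀, rfl⟩ := hγ
    exact Phi_slash_Gamma1 hℓ hk γ₀ hγ₀
  holo' := mdifferentiable_Phi ℓ ![0, k]
  bdd_at_cusps' hc := by
    have hle : ((CongruenceSubgroup.Gamma1 ℓ : Subgroup SL(2, ℤ)) : Subgroup (GL (Fin 2) ℝ)) ≤ 𝒮ℒ := by
      rintro _ ⟨γ, -, rfl⟩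
      exact ⟨γ, rfl⟩
    exact Phi_isBoundedAt hℓ ((good_zero_iff ℓ k).mpr hk) (hc.mono hle)

lemma eisOne_apply (ℓ : ℕ) (hℓ : 0 < ℓ) (k : ℤ) (hk : ¬ (ℓ : ℤ) ∣ 2 * k) (τ : ℍ) :
    eisOne ℓ hℓ k hk τ = Phi ℓ ![0, k] τ := rfl

end

end Fermat.Agent.DS.Eis1
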