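import Mathlib
import Fermat.Agent.DS.Eis1.Form

/-!
# Weight-one Eisenstein series, part 4: the `q`-expansion

For real `x` (with `2x ∉ ℤ`), `S x τ = (cotPi (2x) - 2 cotPi x) - 2πi ∑_{N ≥ 1} (∑_{d ∣ N} eC x d) q^N`
where `eC x d = e(2xd) - e(-2xd) - 2 e(xd) + 2 e(-xd)`, `e(t) = exp(2πi t)`.
-/

set_option autoImplicit false

namespace Fermat.Agent.DS.Eis1

open Complex Filter Topology
open UpperHalfPlane hiding I
open scoped Real MatrixGroups ModularForm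

noncomputable section

/-- The expansion of the cotangent in the upper half plane. -/
lemma hasSum_cotPi_upper {w : ℂ} (hw : 0 < w.im) :
    HasSum (fun n : ℕ => -(2 * π * I) * Complex.exp (2 * π * I * w) ^ (n + 1))
      (cotPi w + π * I) := by
  have hpi := Real.pi_pos
  have hnorm : ‖Complex.exp (2 * π * I * w)‖ < 1 := by
    rw [Complex.norm_exp]
    have : (2 * π * I * w).re = -(2 * π * w.im) := by simp
    rw [this, Real.exp_lt_one_iff]
    nlinarith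
  have hne : 1 - Complex.exp (2 * π * I * w) ≠ 0 := by
    intro h
    have h1 : Complex.exp (2 * π * I * w) = 1 := (sub_eq_zero.mp h).symm
    rw [h1, norm_one] at hnorm
    exact lt_irrefl _ hnorm
  have hgeo := (hasSum_geometric_of_norm_lt_one hnorm).mul_left
    (-(2 * π * I) * Complex.exp (2 * π * I * w))
  have hval : cotPi w + π * I =
      -(2 * π * I) * Complex.exp (2 * π * I * w) * (1 - Complex.exp (2 * π * I * w))⁻¹ := by
    rw [cotPi_add_pi_I hw]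
    field_simp
    ring_nf
    rw [Complex.I_sq]
    ring
  rw [hval]
  refine hgeo.congr_fun fun n => ?_
  ring

lemma R_neg (τ : ℍ) (z : ℂ) (m : ℤ) : R τ z (-m) = -R τ (-z) m := by
  simp only [R]
  rw [show ((-m : ℤ) : ℂ) * τ + 2 * z = -((m : ℂ) * τ + 2 * -z) by push_cast; ring,
    show ((-m : ℤ) : ℂ) * τ + z = -((m : ℂ) * τ + -z) by push_cast; ring,
    show ((-m : ℤ) : ℂ) * τ = -((m : ℂ) * τ) by push_cast; ring,
    cotPi_neg, cotPi_neg, cotPi_neg]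
  ring

/-- The rows with positive index, for real `x`. -/
lemma hasSum_R_pos (τ : ℍ) (x : ℝ) (m : ℕ) (hm : 0 < m) :
    HasSum (fun n : ℕ => -(2 * π * I) * Complex.exp (2 * π * I * τ) ^ (m * (n + 1)) *
        (Complex.exp (2 * π * I * (2 * x)) ^ (n + 1) - 2 * Complex.exp (2 * π * I * x) ^ (n + 1)
          + 1))
      (R τ x (m : ℤ)) := by
  have hy : 0 < (m : ℝ) * τ.im := mul_pos (Nat.cast_pos.mpr hm) τ.im_pos
  have i0 : 0 < (((m : ℤ) : ℂ) * τ).im := by simpa using hy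
  have i1 : 0 < (((m : ℤ) : ℂ) * τ + x).im := by simpa using hy
  have i2 : 0 < (((m : ℤ) : ℂ) * τ + 2 * x).im := by simpa using hy
  have h := ((hasSum_cotPi_upper i2).sub ((hasSum_cotPi_upper i1).mul_left 2)).add
    (hasSum_cotPi_upper i0)
  have hval : cotPi (((m : ℤ) : ℂ) * τ + 2 * x) + π * I - 2 * (cotPi (((m : ℤ) : ℂ) * τ + x) + π * I)
      + (cotPi (((m : ℤ) : ℂ) * τ) + π * I) = R τ x (m : ℤ) := by
    simp only [R]
    ring
  rw [hval] at h
  refine h.congr_fun fun n => ?_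
  have e0 : Complex.exp (2 * π * I * (((m : ℤ) : ℂ) * τ)) ^ (n + 1) =
      Complex.exp (2 * π * I * τ) ^ (m * (n + 1)) := by
    rw [← Complex.exp_nat_mul, ← Complex.exp_nat_mul]
    congr 1
    push_cast
    ring
  have e1 : Complex.exp (2 * π * I * (((m : ℤ) : ℂ) * τ + x)) ^ (n + 1) =
      Complex.exp (2 * π * I * τ) ^ (m * (n + 1)) * Complex.exp (2 * π * I * x) ^ (n + 1) := by
    rw [← Complex.exp_nat_mul, ← Complex.exp_nat_mul, ← Complex.exp_nat_mul, ← Complex.exp_add]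
    congr 1
    push_cast
    ring
  have e2 : Complex.exp (2 * π * I * (((m : ℤ) : ℂ) * τ + 2 * x)) ^ (n + 1) =
      Complex.exp (2 * π * I * τ) ^ (m * (n + 1)) *
        Complex.exp (2 * π * I * (2 * x)) ^ (n + 1) := by
    rw [← Complex.exp_nat_mul, ← Complex.exp_nat_mul, ← Complex.exp_nat_mul, ← Complex.exp_add]
    congr 1
    push_cast
    ring
  rw [e0, e1, e2]
  ring

/-- The coefficient function of the Lambert series. -/
def eC (x : ℝ) (d : ℕ) : ℂ :=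
  Complex.exp (2 * π * I * (2 * x)) ^ d - Complex.exp (2 * π * I * (-(2 * x))) ^ d
    - 2 * Complex.exp (2 * π * I * x) ^ d + 2 * Complex.exp (2 * π * I * (-x)) ^ d

lemma norm_exp_real (y : ℝ) (d : ℕ) : ‖Complex.exp (2 * π * I * y) ^ d‖ = 1 := by
  rw [norm_pow, Complex.norm_exp]
  have : (2 * π * I * y).re = 0 := by simp
  rw [this, Real.exp_zero, one_pow]

lemma norm_eC_le (x : ℝ) (d : ℕ) : ‖eC x d‖ ≤ 6 := by
  unfold eC
  have h1 := norm_exp_real (2 * x) d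
  have h2 := norm_exp_real (-(2 * x)) d
  have h3 := norm_exp_real x d
  have h4 := norm_exp_real (-x) d
  push_cast at h1 h2 h3 h4
  calc ‖Complex.exp (2 * π * I * (2 * x)) ^ d - Complex.exp (2 * π * I * (-(2 * x))) ^ d
        - 2 * Complex.exp (2 * π * I * x) ^ d + 2 * Complex.exp (2 * π * I * (-x)) ^ d‖
      ≤ ‖Complex.exp (2 * π * I * (2 * x)) ^ d‖ + ‖Complex.exp (2 * π * I * (-(2 * x))) ^ d‖
        + ‖2 * Complex.exp (2 * π * I * x) ^ d‖ + ‖2 * Complex.exp (2 * π * I * (-x)) ^ d‖ := by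
        refine (norm_add_le _ _).trans (add_le_add_left ((norm_sub_le _ _).trans
          (add_le_add_left (norm_sub_le _ _) _)) _)
    _ = 6 := by
        rw [norm_mul, norm_mul, h1, h2, h3, h4, Complex.norm_ofNat]
        norm_num

/-- The rows `m` and `-m` together. -/
lemma hasSum_R_pair (τ : ℍ) (x : ℝ) (m : ℕ) (hm : 0 < m) :
    HasSum (fun n : ℕ => -(2 * π * I) * eC x (n + 1) *
        Complex.exp (2 * π * I * τ) ^ (m * (n + 1)))
      (R τ x (m : ℤ) + R τ x (-(m : ℤ))) := by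
  have h1 := hasSum_R_pos τ x m hm
  have h2 := (hasSum_R_pos τ (-x) m hm).neg
  have e : -R τ ((-x : ℝ) : ℂ) (m : ℤ) = R τ x (-(m : ℤ)) := by
    rw [R_neg]
    push_cast
    rfl
  rw [e] at h2
  refine (h1.add h2).congr_fun fun n => ?_
  unfold eC
  push_cast
  ring_nf

/-- Lambert series rearrangement for bounded coefficients. -/
lemma summable_lambert (f : ℕ → ℂ) {B : ℝ} (hf : ∀ n, ‖f n‖ ≤ B) {q : ℂ} (hq : ‖q‖ < 1) :
    Summable (fun c : ℕ+ × ℕ+ => f c.2 * q ^ ((c.1 : ℕ) * c.2)) := by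
  have hq' : ‖(‖q‖ : ℝ)‖ < 1 := by simpa using hq
  have h0 := (summable_prod_mul_pow (𝕜 := ℝ) 0 hq').mul_left B
  refine Summable.of_norm_bounded h0 fun c => ?_
  simp only [pow_zero, one_mul]
  rw [norm_mul, norm_pow]
  exact mul_le_mul_of_nonneg_right (hf _) (by positivity)

lemma hasSum_lambert (f : ℕ → ℂ) {B : ℝ} (hf : ∀ n, ‖f n‖ ≤ B) {q : ℂ} (hq : ‖q‖ < 1) :
    HasSum (fun N : ℕ+ => (∑ d ∈ (N : ℕ).divisors, f d) * q ^ (N : ℕ))
      (∑' c : ℕ+ × ℕ+, f c.2 * q ^ ((c.1 : ℕ) * c.2)) := by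
  have hs := summable_lambert f hf hq
  have hs' := (sigmaAntidiagonalEquivProd.summable_iff).mpr hs
  have h1 := hs'.hasSum.sigma (fun N => hasSum_fintype _)
  have e := sigmaAntidiagonalEquivProd.tsum_eq (fun c : ℕ+ × ℕ+ => f c.2 * q ^ ((c.1 : ℕ) * c.2))
  rw [← e]
  refine HasSum.congr_fun h1 fun N => ?_
  simp only [Function.comp_apply, sigmaAntidiagonalEquivProd, divisorsAntidiagonalFactors,
    PNat.mk_coe, Equiv.coe_fn_mk, Finset.univ_eq_attach]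
  rw [(N : ℕ).divisorsAntidiagonal.sum_attach (fun x : ℕ × ℕ => f x.2 * q ^ (x.1 * x.2)),
    Nat.sum_divisorsAntidiagonal' (fun a b => f b * q ^ (a * b)), Finset.sum_mul]
  refine Finset.sum_congr rfl fun d hd => ?_
  rw [Nat.div_mul_cancel (Nat.dvd_of_mem_divisors hd)]

/-- The `q`-expansion of `S x τ` for real generic `x`, indexed by `ℕ+`. -/
theorem hasSum_S_real (τ : ℍ) (x : ℝ) (hx : Gen τ x) :
    HasSum (fun N : ℕ+ => (∑ d ∈ (N : ℕ).divisors, -(2 * π * I) * eC x d) *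
        Complex.exp (2 * π * I * τ) ^ (N : ℕ))
      (S x τ - (cotPi (2 * x) - 2 * cotPi x)) := by
  have hpi := Real.pi_pos
  set q := Complex.exp (2 * π * I * τ) with hq
  have hqn : ‖q‖ < 1 := UpperHalfPlane.norm_exp_two_pi_I_lt_one τ
  set f : ℕ → ℂ := fun d => -(2 * π * I) * eC x d with hf
  have hfB : ∀ n, ‖f n‖ ≤ 2 * π * 6 := by
    intro n
    simp only [hf]
    rw [norm_mul, norm_neg, norm_mul, norm_mul, Complex.norm_I, mul_one, Complex.norm_ofNat,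
      Complex.norm_real, Real.norm_of_nonneg hpi.le]
    exact mul_le_mul_of_nonneg_left (norm_eC_le x n) (by positivity)
  have hL := hasSum_lambert f hfB hqn
  suffices h : ∑' c : ℕ+ × ℕ+, f c.2 * q ^ ((c.1 : ℕ) * c.2) =
      S x τ - (cotPi (2 * x) - 2 * cotPi x) by
    rw [← h]
    exact hL
  have hs := summable_lambert f hfB hqn
  have hfib : HasSum (fun a : ℕ+ => R τ x ((a : ℕ) : ℤ) + R τ x (-((a : ℕ) : ℤ)))
      (∑' c : ℕ+ × ℕ+, f c.2 * q ^ ((c.1 : ℕ) * c.2)) := by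
    refine hs.hasSum.prod_fiberwise fun a => ?_
    have h0 := hasSum_R_pair τ x a a.pos
    exact (hasSum_pnat_iff_hasSum_succ (f := fun n : ℕ => f n * q ^ ((a : ℕ) * n))).mpr h0
  have hR := hasSum_R hx
  have h1 : Summable (fun n : ℕ => R τ x ((n : ℤ) + 1)) :=
    hR.summable.comp_injective (i := fun n : ℕ => (n : ℤ) + 1) (fun a b h => by simpa using h)
  have h2 : Summable (fun n : ℕ => R τ x (-((n : ℤ) + 1))) :=
    hR.summable.comp_injective (i := fun n : ℕ => -((n : ℤ) + 1)) (fun a b h => by simpa using h)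
  have h3 := HasSum.of_add_one_of_neg_add_one h1.hasSum h2.hasSum
  have h4 := h3.unique hR
  have h5 : HasSum (fun n : ℕ => R τ x ((n : ℤ) + 1) + R τ x (-((n : ℤ) + 1)))
      (S x τ - R τ x 0) := by
    have h := h1.hasSum.add h2.hasSum
    have e : (∑' n : ℕ, R τ x ((n : ℤ) + 1)) + ∑' n : ℕ, R τ x (-((n : ℤ) + 1)) =
        S x τ - R τ x 0 := by
      rw [← h4]; ring
    rw [e] at h
    exact h
  have h6 : HasSum (fun a : ℕ+ => R τ x ((a : ℕ) : ℤ) + R τ x (-((a : ℕ) : ℤ)))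
      (S x τ - R τ x 0) := by
    refine (hasSum_pnat_iff_hasSum_succ
      (f := fun n : ℕ => R τ x ((n : ℕ) : ℤ) + R τ x (-((n : ℕ) : ℤ)))).mpr ?_
    refine h5.congr_fun fun n => ?_
    push_cast
    rfl
  have hR0 : R τ x 0 = cotPi (2 * x) - 2 * cotPi x := by
    simp [R, cotPi_zero]
  rw [← hR0]
  exact hfib.unique h6

local notation "𝕢" => Function.Periodic.qParam

/-- The `q`-expansion coefficients of `Phi ℓ (0, k)`. -/
def phiCoeff (ℓ : ℕ) (k : ℤ) (n : ℕ) : ℂ :=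
  if n = 0 then cotPi (2 * (((k : ℝ) / ℓ : ℝ) : ℂ)) - 2 * cotPi (((k : ℝ) / ℓ : ℝ) : ℂ)
  else ∑ d ∈ n.divisors, -(2 * π * I) * eC ((k : ℝ) / ℓ) d

/-- The `q`-expansion of `Phi ℓ (0, k)` as a `HasSum`. -/
theorem hasSum_Phi {ℓ : ℕ} (hℓ : 0 < ℓ) {k : ℤ} (hk : ¬ (ℓ : ℤ) ∣ 2 * k) (τ : ℍ) :
    HasSum (fun n : ℕ => phiCoeff ℓ k n • 𝕢 1 (τ : ℂ) ^ n) (Phi ℓ ![0, k] τ) := by
  have hgen := gen_of_good hℓ.ne' ((good_zero_iff ℓ k).mpr hk) τ
  have ex : ((((![0, k] : Fin 2 → ℤ) 0 : ℤ) : ℂ) * τ + (((![0, k] : Fin 2 → ℤ) 1 : ℤ) : ℂ)) / ℓ =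
      ((((k : ℝ) / ℓ : ℝ)) : ℂ) := by
    simp
  rw [ex] at hgen
  have hPhi : Phi ℓ ![0, k] τ = S ((((k : ℝ) / ℓ : ℝ)) : ℂ) τ := by
    unfold Phi
    rw [ex]
  have h := hasSum_S_real τ ((k : ℝ) / ℓ) hgen
  have hq : 𝕢 1 (τ : ℂ) = Complex.exp (2 * π * I * τ) := by
    simp [Function.Periodic.qParam]
  rw [hq, hPhi]
  have h' := (hasSum_pnat_iff
    (f := fun n : ℕ => phiCoeff ℓ k n • Complex.exp (2 * π * I * τ) ^ n)).mp
    (h.congr_fun fun N => by
      simp only [phiCoeff, if_neg N.ne_zero, smul_eq_mul])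
  have e0 : S ((((k : ℝ) / ℓ : ℝ)) : ℂ) τ -
      (cotPi (2 * (((k : ℝ) / ℓ : ℝ) : ℂ)) - 2 * cotPi (((k : ℝ) / ℓ : ℝ) : ℂ)) +
      phiCoeff ℓ k 0 • Complex.exp (2 * π * I * τ) ^ 0 = S ((((k : ℝ) / ℓ : ℝ)) : ℂ) τ := by
    simp [phiCoeff]
  rw [e0] at h'
  exact h'

lemma one_mem_strictPeriods_Gamma1 (ℓ : ℕ) :
    (1 : ℝ) ∈ (Subgroup.map (Matrix.SpecialLinearGroup.mapGL ℝ)
      (CongruenceSubgroup.Gamma1 ℓ)).strictPeriods := by
  have hT : ModularGroup.T ∈ CongruenceSubgroup.Gamma1 ℓ := by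
    rw [CongruenceSubgroup.Gamma1_mem]
    simp [ModularGroup.T]
  have h := Subgroup.strictPeriods_eq_zmultiples_one_of_T_mem hT
  rw [h]
  exact AddSubgroup.mem_zmultiples (1 : ℝ)

/-- The `q`-expansion coefficients of `eisOne`. -/
theorem qExpansion_eisOne (ℓ : ℕ) (hℓ : 0 < ℓ) (k : ℤ) (hk : ¬ (ℓ : ℤ) ∣ 2 * k) (n : ℕ) :
    (UpperHalfPlane.qExpansion 1 (eisOne ℓ hℓ k hk)).coeff n = phiCoeff ℓ k n :=
  (ModularFormClass.qExpansion_coeff_unique (f := eisOne ℓ hℓ k hk) one_pos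
    (one_mem_strictPeriods_Gamma1 ℓ) (fun τ => hasSum_Phi hℓ hk τ) n).symm

end

end Fermat.Agent.DS.Eis1
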