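import Mathlib
import Fermat.Prelude.Def_FLTPrelim_Modularity
import Fermat.Agent.DS.Eis1.QExp

/-!
# Weight-one Eisenstein series, part 5: the integral family `eisFam ℓ d`

`eisFam ℓ d = κ • Phi ℓ (0, d)` with `κ = -(ζ² - 1)/(πi)`, `ζ = exp(2πi/ℓ)`.  Its `q`-expansion
has coefficients in `ℤ[ζ]`; modulo any prime above `ℓ` the constant term is `6 d⁻¹` and the higher
coefficients vanish.  For `γ ∈ Γ₀(ℓ)`: `eisFam ℓ d ∣[1] γ = eisFam ℓ (d γ₁₁)`.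
-/

set_option autoImplicit false

namespace Fermat.Agent.DS.Eis1

open Complex Filter Topology
open UpperHalfPlane hiding I
open scoped Real MatrixGroups ModularForm

noncomputable section

/-- `ζ = exp(2πi/ℓ)`. -/
def zetaL (ℓ : ℕ) : ℂ := Complex.exp (2 * π * I / ℓ)

lemma zetaL_ne_zero (ℓ : ℕ) : zetaL ℓ ≠ 0 := Complex.exp_ne_zero _

lemma zetaL_isPrimitiveRoot {ℓ : ℕ} (hℓ : ℓ ≠ 0) : IsPrimitiveRoot (zetaL ℓ) ℓ :=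
  Complex.isPrimitiveRoot_exp ℓ hℓ

lemma zetaL_pow {ℓ : ℕ} (hℓ : ℓ ≠ 0) : zetaL ℓ ^ ℓ = 1 :=
  (zetaL_isPrimitiveRoot hℓ).pow_eq_one

lemma zetaL_zpow_ne_one {ℓ : ℕ} (hℓ : ℓ ≠ 0) {m : ℤ} (hm : ¬ (ℓ : ℤ) ∣ m) : zetaL ℓ ^ m ≠ 1 :=
  fun h => hm (((zetaL_isPrimitiveRoot hℓ).zpow_eq_one_iff_dvd m).mp h)

/-- `exp(2πi m/ℓ) = ζ^m`. -/
lemma exp_rat (ℓ : ℕ) (m : ℤ) :
    Complex.exp (2 * π * I * (((m : ℝ) / ℓ : ℝ) : ℂ)) = zetaL ℓ ^ m := by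
  rw [zetaL, ← Complex.exp_int_mul]
  congr 1
  push_cast
  ring

lemma cotPi_eq_of_exp_ne_one {x : ℂ} (h : Complex.exp (2 * π * I * x) ≠ 1) :
    cotPi x = π * I * (Complex.exp (2 * π * I * x) + 1) / (Complex.exp (2 * π * I * x) - 1) := by
  have h1 : Complex.exp (2 * π * I * x) - 1 ≠ 0 := sub_ne_zero.mpr h
  have h2 : 1 - Complex.exp (2 * π * I * x) ≠ 0 := sub_ne_zero.mpr (Ne.symm h)
  have h3 : I * (1 - Complex.exp (2 * π * I * x)) ≠ 0 := mul_ne_zero Complex.I_ne_zero h2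
  have key : (Complex.exp (2 * π * I * x) + 1) / (I * (1 - Complex.exp (2 * π * I * x))) =
      I * (Complex.exp (2 * π * I * x) + 1) / (Complex.exp (2 * π * I * x) - 1) := by
    rw [div_eq_div_iff h3 h1]
    linear_combination (-(Complex.exp (2 * π * I * x) + 1) * (1 - Complex.exp (2 * π * I * x))) *
      Complex.I_mul_I
  rw [cotPi, Complex.cot_pi_eq_exp_ratio, key]
  ring

/-- The value of `cotPi` at `m/ℓ`. -/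
lemma cotPi_rat {ℓ : ℕ} (hℓ : ℓ ≠ 0) {m : ℤ} (hm : ¬ (ℓ : ℤ) ∣ m) :
    cotPi (((m : ℝ) / ℓ : ℝ) : ℂ) = π * I * (zetaL ℓ ^ m + 1) / (zetaL ℓ ^ m - 1) := by
  have h := zetaL_zpow_ne_one hℓ hm
  rw [← exp_rat] at h
  rw [cotPi_eq_of_exp_ne_one h, exp_rat]

/-- The normalising constant `κ = -(ζ² - 1)/(πi)`. -/
def kappa (ℓ : ℕ) : ℂ := -(zetaL ℓ ^ 2 - 1) / (π * I)

/-- The `q`-expansion coefficients of the integral family, as complex numbers. -/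
def famCoeff (ℓ : ℕ) (d : ℤ) (n : ℕ) : ℂ :=
  if n = 0 then
    (zetaL ℓ ^ 2 - 1) * (zetaL ℓ ^ (2 * d) + 4 * zetaL ℓ ^ d + 1) / (zetaL ℓ ^ (2 * d) - 1)
  else 2 * (zetaL ℓ ^ 2 - 1) * ∑ t ∈ n.divisors,
    (zetaL ℓ ^ (2 * d * t) - zetaL ℓ ^ (-(2 * d * t)) - 2 * zetaL ℓ ^ (d * t)
      + 2 * zetaL ℓ ^ (-(d * t)))

lemma not_dvd_of_not_dvd_two_mul {ℓ : ℕ} {d : ℤ} (hd : ¬ (ℓ : ℤ) ∣ 2 * d) : ¬ (ℓ : ℤ) ∣ d :=
  fun h => hd (Dvd.dvd.mul_left h 2)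

lemma eC_rat (ℓ : ℕ) (d : ℤ) (t : ℕ) :
    eC ((d : ℝ) / ℓ) t = zetaL ℓ ^ (2 * d * t) - zetaL ℓ ^ (-(2 * d * t)) - 2 * zetaL ℓ ^ (d * t)
      + 2 * zetaL ℓ ^ (-(d * t)) := by
  have e1 : (2 * (((d : ℝ) / ℓ : ℝ) : ℂ)) = ((((2 * d : ℤ) : ℝ) / ℓ : ℝ) : ℂ) := by
    push_cast; ring
  have e2 : (-((((2 * d : ℤ) : ℝ) / ℓ : ℝ) : ℂ)) = ((((-(2 * d) : ℤ) : ℝ) / ℓ : ℝ) : ℂ) := by
    push_cast; ring
  have e3 : (-(((d : ℝ) / ℓ : ℝ) : ℂ)) = ((((-d : ℤ) : ℝ) / ℓ : ℝ) : ℂ) := by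
    push_cast; ring
  unfold eC
  rw [e1, e2, e3, exp_rat, exp_rat, exp_rat, exp_rat, ← zpow_natCast, ← zpow_natCast,
    ← zpow_natCast, ← zpow_natCast, ← zpow_mul, ← zpow_mul, ← zpow_mul, ← zpow_mul]
  simp only [neg_mul]

/-- `κ` times the coefficients of `Phi ℓ (0, d)` are the integral coefficients `famCoeff`. -/
lemma kappa_mul_phiCoeff {ℓ : ℕ} (hℓ : 0 < ℓ) {d : ℤ} (hd : ¬ (ℓ : ℤ) ∣ 2 * d) (n : ℕ) :
    kappa ℓ * phiCoeff ℓ d n = famCoeff ℓ d n := by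
  have hpi : (π : ℂ) ≠ 0 := Complex.ofReal_ne_zero.mpr Real.pi_ne_zero
  have hI : (I : ℂ) ≠ 0 := Complex.I_ne_zero
  unfold phiCoeff famCoeff kappa
  split_ifs with hn
  · have e1 : (2 * (((d : ℝ) / ℓ : ℝ) : ℂ)) = ((((2 * d : ℤ) : ℝ) / ℓ : ℝ) : ℂ) := by
      push_cast; ring
    rw [e1, cotPi_rat hℓ.ne' hd, cotPi_rat hℓ.ne' (not_dvd_of_not_dvd_two_mul hd)]
    have hw1 : zetaL ℓ ^ d - 1 ≠ 0 :=
      sub_ne_zero.mpr (zetaL_zpow_ne_one hℓ.ne' (not_dvd_of_not_dvd_two_mul hd))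
    have hw2 : zetaL ℓ ^ (2 * d) - 1 ≠ 0 := sub_ne_zero.mpr (zetaL_zpow_ne_one hℓ.ne' hd)
    have hsq : zetaL ℓ ^ (2 * d) = (zetaL ℓ ^ d) ^ 2 := by
      rw [mul_comm, zpow_mul, zpow_ofNat]
    rw [hsq] at hw2 ⊢
    field_simp
    ring
  · rw [Finset.mul_sum, Finset.mul_sum]
    refine Finset.sum_congr rfl fun t _ => ?_
    rw [eC_rat]
    field_simp

/-- The integral family of weight-one Eisenstein series on `Γ₁(ℓ)`. -/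
def eisFam (ℓ : ℕ) (d : ℤ) : ModularForm (CongruenceSubgroup.Gamma1 ℓ) 1 :=
  if h : 0 < ℓ ∧ ¬ (ℓ : ℤ) ∣ 2 * d then kappa ℓ • eisOne ℓ h.1 d h.2 else 0

lemma eisFam_eq {ℓ : ℕ} (hℓ : 0 < ℓ) {d : ℤ} (hd : ¬ (ℓ : ℤ) ∣ 2 * d) :
    eisFam ℓ d = kappa ℓ • eisOne ℓ hℓ d hd := by
  unfold eisFam
  rw [dif_pos ⟨hℓ, hd⟩]

lemma coe_eisFam {ℓ : ℕ} (hℓ : 0 < ℓ) {d : ℤ} (hd : ¬ (ℓ : ℤ) ∣ 2 * d) :
    (eisFam ℓ d : ℍ → ℂ) = kappa ℓ • Phi ℓ ![0, d] := by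
  rw [eisFam_eq hℓ hd]
  rfl

local notation "𝕢" => Function.Periodic.qParam

/-- The `q`-expansion of the integral family. -/
theorem qCoeff_eisFam {ℓ : ℕ} (hℓ : 0 < ℓ) {d : ℤ} (hd : ¬ (ℓ : ℤ) ∣ 2 * d) (n : ℕ) :
    ModularFormClass.qCoeff (eisFam ℓ d) n = famCoeff ℓ d n := by
  have hsum : ∀ τ : ℍ, HasSum (fun m : ℕ => famCoeff ℓ d m • 𝕢 1 (τ : ℂ) ^ m) (eisFam ℓ d τ) := by
    intro τ
    have h := (hasSum_Phi hℓ hd τ).mul_left (kappa ℓ)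
    have e : eisFam ℓ d τ = kappa ℓ * Phi ℓ ![0, d] τ := by
      rw [show eisFam ℓ d τ = (eisFam ℓ d : ℍ → ℂ) τ from rfl, coe_eisFam hℓ hd]
      rfl
    rw [e]
    refine h.congr_fun fun m => ?_
    rw [← kappa_mul_phiCoeff hℓ hd m, smul_eq_mul, smul_eq_mul, mul_assoc]
  exact (ModularFormClass.qExpansion_coeff_unique (f := eisFam ℓ d) one_pos
    (one_mem_strictPeriods_Gamma1 ℓ) hsum n).symm

/-! ### The family relations -/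

lemma not_dvd_two_mul_mul {ℓ : ℕ} {d : ℤ} (hd : ¬ (ℓ : ℤ) ∣ 2 * d) (γ : SL(2, ℤ))
    (hγ : γ ∈ CongruenceSubgroup.Gamma0 ℓ) : ¬ (ℓ : ℤ) ∣ 2 * (d * γ 1 1) := by
  intro h
  apply hd
  rw [CongruenceSubgroup.Gamma0_mem, ZMod.intCast_zmod_eq_zero_iff_dvd] at hγ
  have hdet : (γ 0 0 : ℤ) * γ 1 1 - γ 0 1 * γ 1 0 = 1 := by
    have := γ.det_coe
    rw [Matrix.det_fin_two] at this
    exact this
  obtain ⟨x, hx⟩ := h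
  obtain ⟨y, hy⟩ := hγ
  refine ⟨γ 0 0 * x - 2 * d * γ 0 1 * y, ?_⟩
  linear_combination (-(2 * d)) * hdet + (γ 0 0 : ℤ) * hx - (2 * d * γ 0 1) * hy

/-- Diamond relation: `eisFam ℓ d ∣[1] γ = eisFam ℓ (d γ₁₁)` for `γ ∈ Γ₀(ℓ)`. -/
theorem eisFam_slash_Gamma0 {ℓ : ℕ} (hℓ : 0 < ℓ) {d : ℤ} (hd : ¬ (ℓ : ℤ) ∣ 2 * d) (γ : SL(2, ℤ))
    (hγ : γ ∈ CongruenceSubgroup.Gamma0 ℓ) :
    (eisFam ℓ d : ℍ → ℂ) ∣[(1 : ℤ)] γ = (eisFam ℓ (d * γ 1 1) : ℍ → ℂ) := by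
  rw [coe_eisFam hℓ hd, coe_eisFam hℓ (not_dvd_two_mul_mul hd γ hγ), ModularForm.SL_smul_slash,
    Phi_slash_Gamma0 hℓ hd γ hγ]

/-- `eisFam ℓ d` only depends on `d` modulo `ℓ`. -/
theorem eisFam_congr {ℓ : ℕ} (hℓ : 0 < ℓ) {d d' : ℤ} (hd : ¬ (ℓ : ℤ) ∣ 2 * d)
    (h : (ℓ : ℤ) ∣ d' - d) : eisFam ℓ d' = eisFam ℓ d := by
  obtain ⟨t, ht⟩ := h
  have hd' : ¬ (ℓ : ℤ) ∣ 2 * d' := by
    intro h'
    apply hd
    obtain ⟨x, hx⟩ := h'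
    exact ⟨x - 2 * t, by linarith⟩
  apply DFunLike.coe_injective
  rw [coe_eisFam hℓ hd, coe_eisFam hℓ hd']
  congr 1
  rw [← Phi_add_smul hℓ.ne' ((good_zero_iff ℓ d).mpr hd) ![0, t]]
  congr 1
  ext i
  fin_cases i
  · simp
  · simp
    linarith

/-! ### Integrality and the congruence modulo primes above `ℓ` -/

lemma isIntegral_zetaL {ℓ : ℕ} (hℓ : ℓ ≠ 0) : IsIntegral ℤ (zetaL ℓ) :=
  IsIntegral.of_pow (Nat.pos_of_ne_zero hℓ) (by rw [zetaL_pow hℓ]; exact isIntegral_one)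

lemma isIntegral_zetaL_inv {ℓ : ℕ} (hℓ : ℓ ≠ 0) : IsIntegral ℤ (zetaL ℓ)⁻¹ :=
  IsIntegral.of_pow (Nat.pos_of_ne_zero hℓ)
    (by rw [inv_pow, zetaL_pow hℓ, inv_one]; exact isIntegral_one)

/-- `ζ` as a unit of the ring of algebraic integers. -/
def zetaInt {ℓ : ℕ} (hℓ : ℓ ≠ 0) : (integralClosure ℤ ℂ)ˣ where
  val := ⟨zetaL ℓ, isIntegral_zetaL hℓ⟩
  inv := ⟨(zetaL ℓ)⁻¹, isIntegral_zetaL_inv hℓ⟩
  val_inv := by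
    apply Subtype.ext
    show zetaL ℓ * (zetaL ℓ)⁻¹ = 1
    exact mul_inv_cancel₀ (zetaL_ne_zero ℓ)
  inv_val := by
    apply Subtype.ext
    show (zetaL ℓ)⁻¹ * zetaL ℓ = 1
    exact inv_mul_cancel₀ (zetaL_ne_zero ℓ)

lemma coe_zetaInt_zpow {ℓ : ℕ} (hℓ : ℓ ≠ 0) (m : ℤ) :
    ((((zetaInt hℓ) ^ m : (integralClosure ℤ ℂ)ˣ) : integralClosure ℤ ℂ) : ℂ) = zetaL ℓ ^ m := by
  have h := map_zpow (Units.map ((integralClosure ℤ ℂ).val : integralClosure ℤ ℂ →* ℂ))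
    (zetaInt hℓ) m
  have h' := congrArg (fun u : ℂˣ => (u : ℂ)) h
  simp only [Units.coe_map, Units.val_zpow_eq_zpow_val] at h'
  exact h'

/-- The coefficients of `eisFam ℓ d` as algebraic integers; `e` is an inverse of `d` mod `ℓ`. -/
def famCoeffInt {ℓ : ℕ} (hℓ : ℓ ≠ 0) (d : ℤ) (e : ℕ) (n : ℕ) : integralClosure ℤ ℂ :=
  if n = 0 then
    (∑ i ∈ Finset.range e, (((zetaInt hℓ) ^ (2 * d) : (integralClosure ℤ ℂ)ˣ) :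
        integralClosure ℤ ℂ) ^ i) *
      ((((zetaInt hℓ) ^ (2 * d) : (integralClosure ℤ ℂ)ˣ) : integralClosure ℤ ℂ) +
        4 * (((zetaInt hℓ) ^ d : (integralClosure ℤ ℂ)ˣ) : integralClosure ℤ ℂ) + 1)
  else 2 * ((((zetaInt hℓ) ^ (2 : ℤ) : (integralClosure ℤ ℂ)ˣ) : integralClosure ℤ ℂ) - 1) *
    ∑ t ∈ n.divisors,
      ((((zetaInt hℓ) ^ (2 * d * t) : (integralClosure ℤ ℂ)ˣ) : integralClosure ℤ ℂ)
        - (((zetaInt hℓ) ^ (-(2 * d * t)) : (integralClosure ℤ ℂ)ˣ) : integralClosure ℤ ℂ)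
        - 2 * (((zetaInt hℓ) ^ (d * t) : (integralClosure ℤ ℂ)ˣ) : integralClosure ℤ ℂ)
        + 2 * (((zetaInt hℓ) ^ (-(d * t)) : (integralClosure ℤ ℂ)ˣ) : integralClosure ℤ ℂ))

lemma coe_famCoeffInt {ℓ : ℕ} (hℓ : ℓ ≠ 0) {d : ℤ} (hd : ¬ (ℓ : ℤ) ∣ 2 * d) {e : ℕ}
    (he : (ℓ : ℤ) ∣ e * d - 1) (n : ℕ) :
    ((famCoeffInt hℓ d e n : integralClosure ℤ ℂ) : ℂ) = famCoeff ℓ d n := by
  unfold famCoeffInt famCoeff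
  split_ifs with hn
  · have hw : zetaL ℓ ^ (2 * d) ≠ 1 := zetaL_zpow_ne_one hℓ hd
    have hw' : zetaL ℓ ^ (2 * d) - 1 ≠ 0 := sub_ne_zero.mpr hw
    have hpow : (zetaL ℓ ^ (2 * d)) ^ e = zetaL ℓ ^ 2 := by
      obtain ⟨t, ht⟩ := he
      have h1 : (2 * d) * (e : ℤ) = 2 + (ℓ : ℤ) * (2 * t) := by linear_combination 2 * ht
      rw [← zpow_natCast, ← zpow_mul, h1, zpow_add₀ (zetaL_ne_zero ℓ), zpow_mul, zpow_natCast,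
        zetaL_pow hℓ, one_zpow, mul_one, zpow_ofNat]
    have c4 : (((4 : integralClosure ℤ ℂ)) : ℂ) = 4 := rfl
    push_cast
    rw [coe_zetaInt_zpow, coe_zetaInt_zpow, geom_sum_eq hw, hpow, c4]
    field_simp
  · have c2 : (((2 : integralClosure ℤ ℂ)) : ℂ) = 2 := rfl
    push_cast
    simp only [coe_zetaInt_zpow, c2]
    rw [zpow_ofNat]

/-- Modulo a prime above `ℓ`, `ζ ≡ 1`. -/
lemma zetaInt_zpow_sub_one_mem {ℓ : ℕ} [hp : Fact ℓ.Prime] (hℓ : ℓ ≠ 0)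
    (𝔭 : Ideal (integralClosure ℤ ℂ)) [𝔭.IsPrime]
    (h𝔭 : ((ℓ : ℕ) : integralClosure ℤ ℂ) ∈ 𝔭) (m : ℤ) :
    Ideal.Quotient.mk 𝔭 (((zetaInt hℓ) ^ m : (integralClosure ℤ ℂ)ˣ) : integralClosure ℤ ℂ) = 1 := by
  have : CharP (integralClosure ℤ ℂ ⧸ 𝔭) ℓ := by
    rw [CharP.charP_iff_prime_eq_zero hp.out]
    have := Ideal.Quotient.eq_zero_iff_mem.mpr h𝔭
    simpa using this
  have h1 : (Ideal.Quotient.mk 𝔭 ((zetaInt hℓ : (integralClosure ℤ ℂ)ˣ) : integralClosure ℤ ℂ)) ^ ℓ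
      = 1 := by
    rw [← map_pow]
    have : ((zetaInt hℓ : (integralClosure ℤ ℂ)ˣ) : integralClosure ℤ ℂ) ^ ℓ = 1 := by
      apply Subtype.ext
      show zetaL ℓ ^ ℓ = 1
      exact zetaL_pow hℓ
    rw [this, map_one]
  have h2 : (Ideal.Quotient.mk 𝔭 ((zetaInt hℓ : (integralClosure ℤ ℂ)ˣ) : integralClosure ℤ ℂ)
      - 1) ^ ℓ = 0 := by
    rw [sub_pow_char, h1, one_pow, sub_self]
  have h3 : Ideal.Quotient.mk 𝔭 ((zetaInt hℓ : (integralClosure ℤ ℂ)ˣ) : integralClosure ℤ ℂ) = 1 :=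
    sub_eq_zero.mp (pow_eq_zero_iff (Nat.pos_of_ne_zero hℓ).ne' |>.mp h2)
  have h4 : Units.map (Ideal.Quotient.mk 𝔭).toMonoidHom (zetaInt hℓ) = 1 := by
    apply Units.ext
    simpa using h3
  have h5 := map_zpow (Units.map (Ideal.Quotient.mk 𝔭).toMonoidHom) (zetaInt hℓ) m
  rw [h4, one_zpow] at h5
  have h7 : Ideal.Quotient.mk 𝔭 (((zetaInt hℓ) ^ m : (integralClosure ℤ ℂ)ˣ) : integralClosure ℤ ℂ) =
      ((Units.map (Ideal.Quotient.mk 𝔭).toMonoidHom ((zetaInt hℓ) ^ m) :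
        (integralClosure ℤ ℂ ⧸ 𝔭)ˣ) : integralClosure ℤ ℂ ⧸ 𝔭) := rfl
  rw [h7, h5]
  rfl

/-- **Integrality and congruence** of the family: the `q`-expansion of `eisFam ℓ d` has algebraic
integer coefficients `c n`; modulo every prime `𝔭` above `ℓ`, `c 0 * d ≡ 6` and `c n ≡ 0`
for `n ≥ 1`. -/
theorem eisFam_integral (ℓ : ℕ) [hp : Fact ℓ.Prime] (d : ℤ) (hd : ¬ (ℓ : ℤ) ∣ 2 * d) :
    ∃ c : ℕ → integralClosure ℤ ℂ,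
      (∀ n, ModularFormClass.qCoeff (eisFam ℓ d) n = (c n : ℂ)) ∧
      ∀ 𝔭 : Ideal (integralClosure ℤ ℂ), 𝔭.IsPrime → ((ℓ : ℕ) : integralClosure ℤ ℂ) ∈ 𝔭 →
        c 0 * (d : integralClosure ℤ ℂ) - 6 ∈ 𝔭 ∧ ∀ n, n ≠ 0 → c n ∈ 𝔭 := by
  have hℓ : ℓ ≠ 0 := hp.out.ne_zero
  have hℓpos : 0 < ℓ := hp.out.pos
  have hd1 : ¬ (ℓ : ℤ) ∣ d := not_dvd_of_not_dvd_two_mul hd
  -- an inverse of `d` modulo `ℓ`
  obtain ⟨e, he⟩ : ∃ e : ℕ, (ℓ : ℤ) ∣ e * d - 1 := by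
    have hd0 : ((d : ℤ) : ZMod ℓ) ≠ 0 := by
      rwa [Ne, ZMod.intCast_zmod_eq_zero_iff_dvd]
    refine ⟨(((d : ℤ) : ZMod ℓ)⁻¹).val, ?_⟩
    rw [← ZMod.intCast_zmod_eq_zero_iff_dvd]
    push_cast
    rw [ZMod.natCast_zmod_val, inv_mul_cancel₀ hd0, sub_self]
  refine ⟨famCoeffInt hℓ d e, fun n => ?_, fun 𝔭 h𝔭prime h𝔭 => ⟨?_, fun n hn => ?_⟩⟩
  · rw [qCoeff_eisFam hℓpos hd, coe_famCoeffInt hℓ hd he]
  · rw [← Ideal.Quotient.eq_zero_iff_mem]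
    have hed : Ideal.Quotient.mk 𝔭 ((e : integralClosure ℤ ℂ) * (d : integralClosure ℤ ℂ)) = 1 := by
      obtain ⟨t, ht⟩ := he
      have h1 : ((e : integralClosure ℤ ℂ) * (d : integralClosure ℤ ℂ)) =
          1 + ((ℓ : ℕ) : integralClosure ℤ ℂ) * (t : integralClosure ℤ ℂ) := by
        have : ((e : ℤ) * d : ℤ) = 1 + (ℓ : ℤ) * t := by linarith
        exact_mod_cast congrArg (fun x : ℤ => (x : integralClosure ℤ ℂ)) this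
      rw [h1, map_add, map_one, map_mul, Ideal.Quotient.eq_zero_iff_mem.mpr h𝔭, zero_mul, add_zero]
    unfold famCoeffInt
    rw [if_pos rfl]
    simp only [map_sub, map_mul, map_add, map_sum, map_pow, map_one, map_ofNat,
      zetaInt_zpow_sub_one_mem hℓ 𝔭 h𝔭, one_pow, Finset.sum_const, Finset.card_range, nsmul_eq_mul,
      mul_one]
    have h6 : (1 + 4 + 1 : integralClosure ℤ ℂ ⧸ 𝔭) = 6 := by norm_num
    rw [h6]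
    have : ((e : ℕ) : integralClosure ℤ ℂ ⧸ 𝔭) * 6 * Ideal.Quotient.mk 𝔭 (d : integralClosure ℤ ℂ)
        = 6 * Ideal.Quotient.mk 𝔭 ((e : integralClosure ℤ ℂ) * (d : integralClosure ℤ ℂ)) := by
      rw [map_mul, map_natCast]
      ring
    rw [this, hed]
    ring
  · rw [← Ideal.Quotient.eq_zero_iff_mem]
    unfold famCoeffInt
    rw [if_neg hn]
    simp only [map_sub, map_mul, map_add, map_sum, map_one, map_ofNat,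
      zetaInt_zpow_sub_one_mem hℓ 𝔭 h𝔭, sub_self, mul_zero, zero_mul]

end

end Fermat.Agent.DS.Eis1
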